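import Fermat.Agent.S36.GRE.Abs
import Fermat.Agent.INJ.All

/-!
# S36 / GRE, package [C0] : lifts of a `k[tbar]`-basis of `rd (B₀ ∩ O₀)`
(first part of the proof of `INJ.stmt_BBasis`, which does not use `IsAlgClosed`).
-/

set_option autoImplicit false

namespace Fermat.Agent.S36.GRE

open Polynomial IntermediateField Fermat.Agent.INJ
open scoped IntermediateField.algebraAdjoinAdjoin

theorem bBasis0 : Stmt_BBasis0 := by
  intro K F k Fb _ _ _ _ _ _ _ D t hC
  have h1 : Stmt_Gauss := stmt_Gauss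
  have ht := hC.t_mem
  have htr := hC.trans
  have hfin := hC.fin
  have hsepb := hC.sep
  have hnpos : 0 < Module.finrank K⟮t⟯ F := Module.finrank_pos
  have hrank : Module.finrank k⟮D.rd t⟯ Fb = Module.finrank K⟮t⟯ F := (all_Trace K F k Fb D t hC).1
  have hfinb : FiniteDimensional k⟮D.rd t⟯ Fb :=
    Module.finite_of_finrank_pos (by rw [hrank]; exact hnpos)
  have hpid := P6_pid htr
  have hle : P6_Bbar h1 ht htr ≤
      Subalgebra.toSubmodule (integralClosure (Algebra.adjoin k {D.rd t}) Fb) := by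
    rintro _ ⟨x, hx1, hx2, rfl⟩
    exact all_IntRed K F k Fb D t hC x hx2 hx1
  have hfinBt : Module.Finite (Algebra.adjoin k {D.rd t})
      (integralClosure (Algebra.adjoin k {D.rd t}) Fb) :=
    IsIntegralClosure.finite (Algebra.adjoin k {D.rd t}) k⟮D.rd t⟯ Fb _
  have hfg : (P6_Bbar h1 ht htr).FG := Submodule.FG.of_le (Module.Finite.iff_fg.1 hfinBt) hle
  have hfinBb : Module.Finite (Algebra.adjoin k {D.rd t}) (P6_Bbar h1 ht htr) :=
    Module.Finite.iff_fg.2 hfg
  obtain ⟨r, bb⟩ := Module.basisOfFiniteTypeTorsionFree' (R := Algebra.adjoin k {D.rd t})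
    (M := P6_Bbar h1 ht htr)
  have hspanR := P6_span_coe _ bb
  have hli : LinearIndependent k⟮D.rd t⟯ (fun i => (bb i : Fb)) :=
    (P6_li_iff (D.rd t) _).1 (P6_li_coe _ bb)
  have htop : Submodule.span k⟮D.rd t⟯ (Set.range fun i => (bb i : Fb)) = ⊤ := by
    rw [eq_top_iff]
    intro yb _
    obtain ⟨c, hc, hc0, hcy⟩ := P6_exists_mul_mem h1 ht htr yb
    rw [← hspanR] at hcy
    have h6 := Submodule.span_le_restrictScalars (Algebra.adjoin k {D.rd t}) k⟮D.rd t⟯ _ hcy
    have h7 : c * yb ∈ Submodule.span k⟮D.rd t⟯ (Set.range fun i => (bb i : Fb)) := h6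
    have hck : c ∈ k⟮D.rd t⟯ := IntermediateField.algebra_adjoin_le_adjoin k {D.rd t} hc
    have h8 := Submodule.smul_mem _ ((⟨c, hck⟩ : k⟮D.rd t⟯)⁻¹) h7
    have e1 : ((⟨c, hck⟩ : k⟮D.rd t⟯)⁻¹) • (c * yb) = yb := by
      rw [Algebra.smul_def]
      show c⁻¹ * (c * yb) = yb
      rw [← mul_assoc, inv_mul_cancel₀ hc0, one_mul]
    rwa [e1] at h8
  have hr : r = Module.finrank K⟮t⟯ F := by
    rw [← hrank]
    apply le_antisymm
    · simpa using hli.fintype_card_le_finrank
    · simpa using finrank_le_of_span_eq_top htop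
  subst hr
  have hex : ∀ i, ∃ x, IsInt K t x ∧ x ∈ D.O ∧ D.rd x = (bb i : Fb) := fun i => (bb i).2
  choose e he using hex
  have hfun : (fun i => D.rd (e i)) = fun i => (bb i : Fb) := funext fun i => (he i).2.2
  refine ⟨e, fun i => ⟨(he i).2.1, (he i).1⟩, ?_, fun x hxO hx => ?_⟩
  · rw [hfun]; exact hli
  · rw [hfun, hspanR]
    exact ⟨x, hx, hxO, rfl⟩

end Fermat.Agent.S36.GRE
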