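import Fermat.Agent.S36.GRE.Abs
import Fermat.Agent.INJ.All

/-!
# S36 / GRE / C1 : `B₀ ∩ O₀` is free over `A₀[t]` on an orthonormal basis after inverting `a ≡ 1`
-/

set_option autoImplicit false

namespace Fermat.Agent.S36.GRE

open Polynomial IntermediateField
open Fermat.Agent.INJ
open scoped IntermediateField.algebraAdjoinAdjoin

/-- the abstract Nakayama step. -/
theorem BBasisN_nak {R V : Type} [CommRing R] [AddCommGroup V] [Module R V]
    (M M' : Submodule R V) (p : R) (hfg : M.FG)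
    (h : ∀ x ∈ M, ∃ m' ∈ M', ∃ m ∈ M, x = m' + p • m) :
    ∃ a : R, a - 1 ∈ Ideal.span {p} ∧ ∀ x ∈ M, a • x ∈ M' := by
  have hN : (M.map M'.mkQ).FG := hfg.map _
  have hle : M.map M'.mkQ ≤ Ideal.span {p} • M.map M'.mkQ := by
    rintro _ ⟨x, hx, rfl⟩
    obtain ⟨m', hm', m, hm, rfl⟩ := h x hx
    have h0 : M'.mkQ m' = 0 := (Submodule.Quotient.mk_eq_zero _).2 hm'
    rw [map_add, map_smul, h0, zero_add]
    exact Submodule.smul_mem_smul (Ideal.mem_span_singleton_self p) ⟨m, hm, rfl⟩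
  obtain ⟨a, ha1, ha2⟩ :=
    Submodule.exists_sub_one_mem_and_smul_eq_zero_of_fg_of_le_smul _ _ hN hle
  refine ⟨a, ha1, fun x hx => ?_⟩
  have h1 := ha2 _ ⟨x, hx, rfl⟩
  rw [← map_smul] at h1
  exact (Submodule.Quotient.mk_eq_zero _).1 h1

section

variable {K₀ F₀ k Fb : Type} [Field K₀] [Field F₀] [Algebra K₀ F₀] [Field k] [Field Fb]
  [Algebra k Fb] {D₀ : RedData K₀ F₀ k Fb}

/-- elements of `O₀` with zero reduction are divisible by the uniformiser. -/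
theorem BBasisN_div {ϖ : K₀} (hd : IsDisc D₀ ϖ) {y : F₀} (hy : y ∈ D₀.O)
    (hy0 : D₀.rd y = 0) : y * algebraMap K₀ F₀ ϖ⁻¹ ∈ D₀.O := by
  by_cases h0 : y = 0
  · rw [h0, zero_mul]; exact D₀.O.zero_mem
  obtain ⟨a, ha, hu, hu'⟩ := D₀.unram y h0
  have ha' : algebraMap K₀ F₀ a ≠ 0 := by simpa using ha
  have e1 : algebraMap K₀ F₀ a⁻¹ = y * (y * algebraMap K₀ F₀ a)⁻¹ := by
    rw [mul_inv, ← mul_assoc, mul_inv_cancel₀ h0, one_mul, map_inv₀]
  have h1 : algebraMap K₀ F₀ a⁻¹ ∈ D₀.O := by rw [e1]; exact mul_mem hy hu'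
  have h2 : a⁻¹ ∈ D₀.A := (D₀.mem_iff _).1 h1
  have h3 : D₀.ra a⁻¹ = 0 := by
    have h4 := RedData.rd_algebraMap (D := D₀) h2
    rw [e1, RedData.rd_mul hy hu', hy0, zero_mul] at h4
    exact (map_eq_zero (algebraMap k Fb)).1 h4.symm
  have h4 := hd.gen _ h2 h3
  have e2 : y * algebraMap K₀ F₀ ϖ⁻¹ =
      (y * algebraMap K₀ F₀ a) * algebraMap K₀ F₀ (a⁻¹ * ϖ⁻¹) := by
    rw [map_mul, map_inv₀ _ a, mul_assoc, ← mul_assoc (algebraMap K₀ F₀ a),
      mul_inv_cancel₀ ha', one_mul]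
  rw [e2]; exact mul_mem hu (RedData.algebraMap_mem h4)

/-- the trace of an integral element is a polynomial in `t`. -/
theorem BBasisN_trace_poly {t x : F₀} (ht : Transcendental K₀ t) [FiniteDimensional K₀⟮t⟯ F₀]
    (hx : IsInt K₀ t x) :
    ∃ P : K₀[X], algebraMap K₀⟮t⟯ F₀ (Algebra.trace K₀⟮t⟯ F₀ x) = aeval t P := by
  have := P4_pid ht
  have h1 : IsIntegral (Algebra.adjoin K₀ {t}) (Algebra.trace K₀⟮t⟯ F₀ x) :=
    Algebra.isIntegral_trace hx
  obtain ⟨y, hy⟩ := IsIntegrallyClosed.isIntegral_iff.mp h1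
  have hy2 : (y : F₀) ∈ (aeval t : K₀[X] →ₐ[K₀] F₀).range := by
    rw [← Algebra.adjoin_singleton_eq_range_aeval]
    exact y.2
  obtain ⟨P, hP⟩ := hy2
  refine ⟨P, ?_⟩
  rw [← hy]
  exact hP.symm

end

/-- **[C1]** `B₀ ∩ O₀` is free over `A₀[t]` on an orthonormal basis, after inverting `a ≡ 1`. -/
theorem bBasisN (h0 : Stmt_BBasis0) : Stmt_BBasisN := by
  intro K₀ F₀ k Fb _ _ _ _ _ _ _ D₀ t ϖ hC hd
  classical
  obtain ⟨e, he1, he2, he3⟩ := h0 K₀ F₀ k Fb D₀ t hC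
  obtain ⟨hG1, hG2, -, hG4, -⟩ := stmt_Gauss K₀ F₀ k Fb D₀ t hC.t_mem hC.trans
  have hfin := hC.fin
  have := hd.noeth
  have : CharZero F₀ := charZero_of_injective_algebraMap (algebraMap K₀ F₀).injective
  have : CharZero K₀⟮t⟯ := charZero_of_injective_algebraMap (algebraMap K₀ K₀⟮t⟯).injective
  have hsep : Algebra.IsSeparable K₀⟮t⟯ F₀ := inferInstance
  have : Nonempty (Fin (Module.finrank K₀⟮t⟯ F₀)) := ⟨⟨0, Module.finrank_pos⟩⟩
  -- `F₀` as a module over `A₀[X]`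
  let φ : (D₀.A)[X] →+* F₀ :=
    (aeval t : K₀[X] →ₐ[K₀] F₀).toRingHom.comp (mapRingHom D₀.A.subtype)
  let _ : Module (D₀.A)[X] F₀ := Module.compHom F₀ φ
  have hsm : ∀ (Q : (D₀.A)[X]) (x : F₀), Q • x = aeval t (Q.map D₀.A.subtype) * x :=
    fun Q x => rfl
  let M : Submodule (D₀.A)[X] F₀ :=
    { carrier := {x | x ∈ D₀.O ∧ IsInt K₀ t x}
      zero_mem' := ⟨D₀.O.zero_mem, isIntegral_zero⟩
      add_mem' := fun hx hy => ⟨add_mem hx.1 hy.1, hx.2.add hy.2⟩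
      smul_mem' := fun Q x hx => ⟨mul_mem (hG1 Q).1 hx.1, (P7_isInt_aeval t _).mul hx.2⟩ }
  let M' : Submodule (D₀.A)[X] F₀ := Submodule.span _ (Set.range e)
  have hM'M : M' ≤ M := by
    apply Submodule.span_le.2
    rintro _ ⟨i, rfl⟩
    exact he1 i
  have hM'span : ∀ x ∈ M', x ∈ Submodule.span (Algebra.adjoin K₀ {t}) (Set.range e) := by
    intro x hx
    induction hx using Submodule.span_induction with
    | mem x hx => exact Submodule.subset_span hx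
    | zero => exact Submodule.zero_mem _
    | add x y _ _ hx hy => exact Submodule.add_mem _ hx hy
    | smul Q x _ hx =>
      exact Submodule.smul_mem _ (⟨aeval t (Q.map D₀.A.subtype),
        aeval_mem_adjoin_singleton K₀ t⟩ : Algebra.adjoin K₀ {t}) hx
  -- (ii) `M` is finitely generated
  obtain ⟨hli, -⟩ := all_Ortho K₀ F₀ k Fb D₀ t hC.t_mem hC.trans _ e (fun i => (he1 i).1) he2
  let b : Module.Basis (Fin (Module.finrank K₀⟮t⟯ F₀)) K₀⟮t⟯ F₀ :=
    basisOfLinearIndependentOfCardEqFinrank hli (by simp)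
  have hb : ∀ i, b i = e i := fun i => by simp [b]
  let bd := (Algebra.traceForm K₀⟮t⟯ F₀).dualBasis (traceForm_nondegenerate K₀⟮t⟯ F₀) b
  have hfg : M.FG := by
    apply Submodule.FG.of_le (T := Submodule.span _ (Set.range bd))
      (Submodule.fg_span (Set.finite_range _))
    intro x hx
    have h1 : ∀ i, ∃ Q : (D₀.A)[X],
        algebraMap K₀⟮t⟯ F₀ (Algebra.trace K₀⟮t⟯ F₀ (x * e i)) =
          aeval t (Q.map D₀.A.subtype) := by
      intro i
      obtain ⟨P, hP⟩ := BBasisN_trace_poly hG4 (hx.2.mul (he1 i).2)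
      have h2 := ((all_Trace K₀ F₀ k Fb D₀ t hC).2 (x * e i) (mul_mem hx.1 (he1 i).1)).1
      rw [hP] at h2
      obtain ⟨Q, rfl⟩ := hG2 P h2
      exact ⟨Q, hP⟩
    choose Q hQ using h1
    have h2 : x = ∑ i, Q i • bd i := by
      conv_lhs => rw [← bd.sum_repr x]
      refine Finset.sum_congr rfl fun i _ => ?_
      rw [hsm, ← hQ, LinearMap.BilinForm.dualBasis_repr_apply, Algebra.traceForm_apply, hb,
        Algebra.smul_def]
    rw [h2]
    exact Submodule.sum_mem _ fun i _ => Submodule.smul_mem _ _ (Submodule.subset_span ⟨i, rfl⟩)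
  -- (i) `M = M' + ϖ M`
  have hstep : ∀ x ∈ M, ∃ m' ∈ M', ∃ m ∈ M, x = m' + (C ⟨ϖ, hd.mem⟩ : (D₀.A)[X]) • m := by
    intro x hx
    obtain ⟨c, hc⟩ := (Submodule.mem_span_range_iff_exists_fun _).1 (he3 x hx.1 hx.2)
    have h1 : ∀ i, ∃ Q : (D₀.A)[X], aeval (D₀.rd t) (Q.map D₀.rA) = (c i : Fb) := by
      intro i
      have h2 : (c i : Fb) ∈ (aeval (D₀.rd t) : k[X] →ₐ[k] Fb).range := by
        rw [← Algebra.adjoin_singleton_eq_range_aeval]; exact (c i).2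
      obtain ⟨Pb, hPb⟩ := h2
      obtain ⟨Q, rfl⟩ := Polynomial.map_surjective D₀.rA D₀.rA_surj Pb
      exact ⟨Q, hPb⟩
    choose Q hQ using h1
    set s := ∑ i, Q i • e i with hs
    have hsM' : s ∈ M' :=
      Submodule.sum_mem _ fun i _ => Submodule.smul_mem _ _ (Submodule.subset_span ⟨i, rfl⟩)
    have hsM : s ∈ M := hM'M hsM'
    have hrs : D₀.rd s = D₀.rd x := by
      rw [hs, RedData.rd_sum _ (fun i => Q i • e i)
        (fun i _ => mul_mem (hG1 (Q i)).1 (he1 i).1), ← hc]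
      refine Finset.sum_congr rfl fun i _ => ?_
      rw [hsm, RedData.rd_mul (hG1 (Q i)).1 (he1 i).1, (hG1 (Q i)).2, hQ]
      rfl
    have hxs : x - s ∈ M := M.sub_mem hx hsM
    have h0 : D₀.rd (x - s) = 0 := by rw [RedData.rd_sub hx.1 hsM.1, hrs, sub_self]
    refine ⟨s, hsM', (x - s) * algebraMap K₀ F₀ ϖ⁻¹, ⟨BBasisN_div hd hxs.1 h0,
      hxs.2.mul (P7_isInt_of_mem (Subalgebra.algebraMap_mem _ _))⟩, ?_⟩
    rw [hsm, Polynomial.map_C, aeval_C]
    show x = s + algebraMap K₀ F₀ ϖ * ((x - s) * algebraMap K₀ F₀ ϖ⁻¹)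
    rw [mul_comm, mul_assoc, ← map_mul, inv_mul_cancel₀ hd.ne, map_one, mul_one]
    ring
  -- (iii) Nakayama
  obtain ⟨a, ha1, ha2⟩ := BBasisN_nak M M' _ hfg hstep
  refine ⟨e, a, he1, he2, ?_, ?_⟩
  · obtain ⟨b', hb'⟩ := Ideal.mem_span_singleton'.1 ha1
    have h1 : a = 1 + b' * C ⟨ϖ, hd.mem⟩ := by rw [hb']; ring
    have h2 : D₀.rA ⟨ϖ, hd.mem⟩ = 0 := by rw [← RedData.ra_of_mem hd.mem]; exact hd.ra
    rw [h1, Polynomial.map_add, Polynomial.map_one, Polynomial.map_mul, Polynomial.map_C, h2,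
      C_0, mul_zero, add_zero]
  · -- (iv) general integral elements
    intro x hx
    by_cases hx0 : x = 0
    · rw [hx0, mul_zero]; exact Submodule.zero_mem _
    obtain ⟨c, hc0, hc1, -⟩ := D₀.unram x hx0
    have hc0' : algebraMap K₀ F₀ c ≠ 0 := by simpa using hc0
    have h1 : x * algebraMap K₀ F₀ c ∈ M :=
      ⟨hc1, hx.mul (P7_isInt_of_mem (Subalgebra.algebraMap_mem _ _))⟩
    have h2 := hM'span _ (ha2 _ h1)
    have h3 := Submodule.smul_mem _ (algebraMap K₀ (Algebra.adjoin K₀ {t}) c⁻¹) h2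
    convert h3 using 1
    rw [hsm, Algebra.smul_def, ← IsScalarTower.algebraMap_apply, map_inv₀]
    field_simp

end Fermat.Agent.S36.GRE
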