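import Fermat.Agent.S36.GRE.Interface
import Fermat.Agent.S36.H90

/-!
# S36 / GRE, [E1] : the base change datum `(E, ℚ̄, F_E, FF N, I)`
-/

set_option autoImplicit false

noncomputable section

namespace Fermat.Agent.S36.GRE

open Fermat.Agent
open Fermat.Agent.S24 (Qbar FF)
open Fermat.Agent.S36.Base
open Fermat.Agent.ES.Mid (GQ gal coe_gal)
open ModularCurve (coeffMap)

theorem E1_gal_const (N : ℕ) (σ : GQ) (c : Qbar) :
    gal N σ (algebraMap Qbar (FF N) c) = algebraMap Qbar (FF N) (σ c) := by
  apply Subtype.ext
  rw [coe_gal]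
  show coeffMap (σ : Qbar →+* Qbar) (algebraMap Qbar (LaurentSeries Qbar) c)
    = algebraMap Qbar (LaurentSeries Qbar) (σ c)
  rw [ModularCurve.algebraMap_laurentSeries_eq_single,
    ModularCurve.algebraMap_laurentSeries_eq_single, ModularCurve.coeffMap_single]
  rfl

theorem bcInst (hD : Base.Stmt_Descent) (hS : Base.Stmt_SpanE) (hL : Base.Stmt_LinDisj) :
    Stmt_BCInst := by
  intro A N _
  refine ⟨{ ι := emb A N
            g := fun σ => (gal N (σ : GQ) : FF N →+* FF N)
            ι_const := Base.emb_algebraMap A N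
            g_one := fun x => H90.gal_one N x
            g_mul := fun σ τ x => H90.gal_mul N σ τ x
            g_const := fun σ c => E1_gal_const N σ c
            g_ι := fun σ z => Base.gal_emb A N z σ.2
            fixK := ?_
            fixF := ?_
            orbit := ?_
            span := hS A N
            disj := ?_ }, rfl, fun _ _ => rfl⟩
  · intro c hc
    exact (Base.IE.mem_range_iff A).2 fun σ hσ => hc ⟨σ, hσ⟩
  · intro x hx
    exact hD A N x fun σ hσ => hx ⟨σ, hσ⟩
  · intro x
    refine (H90.orbit_finite N (A.inertiaSubgroupIn ℚ) x).subset ?_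
    rintro y ⟨σ, hσ⟩
    exact ⟨σ, σ.2, hσ⟩
  · intro n c z hc h i
    have h1 := congrArg ((ModularCurve.modularFunctionFieldBar N).val) h
    rw [map_sum, map_zero] at h1
    have h2 : ∑ i, algebraMap Qbar (LaurentSeries Qbar) (c i) * cmE A ((z i : FE A N) : Base.LE A)
        = 0 := by
      rw [← h1]
      refine Finset.sum_congr rfl fun i _ => ?_
      rw [map_mul]
      rfl
    exact Subtype.ext (hL A n c (fun i => ((z i : FE A N) : Base.LE A)) hc h2 i)

end Fermat.Agent.S36.GRE

end
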