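import Fermat.Agent.S36.GRE.Abs
import Fermat.Agent.INJ.P1

/-!
# S36 / GRE, [B3] : a good coordinate stays good after restriction (`Stmt_ChartDesc`)
-/

set_option autoImplicit false

namespace Fermat.Agent.S36.GRE

open Polynomial IntermediateField
open Fermat.Agent.INJ

theorem chartDesc (h : Stmt_IndepUp) : Stmt_ChartDesc := by
  intro K₀ K F₀ F G k Fb _ _ _ _ _ _ _ _ _ _ _ _ X D D₀ t hR hC
  have e : D₀.rd t = D.rd (X.ι t) := hR.rd t
  have htr : Transcendental K (X.ι t) :=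
    (INJ.stmt_Gauss _ _ _ _ D _ hC.t_mem hC.trans).2.2.2.1
  have hfin := hC.fin
  have hbound : ∀ (m : ℕ) (f : Fin m → F₀), LinearIndependent K₀⟮t⟯ f →
      m ≤ Module.finrank K⟮X.ι t⟯ F := by
    intro m f hf
    have h1 := (h K₀ K F₀ F G X t htr m f hf).fintype_card_le_finrank
    simpa using h1
  have hrank : Module.rank K₀⟮t⟯ F₀ ≤ (Module.finrank K⟮X.ι t⟯ F : ℕ) := by
    apply rank_le
    intro s hs
    have h1 := hbound s.card (fun i => ((s.equivFin.symm i : s) : F₀))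
      (hs.comp _ s.equivFin.symm.injective)
    exact h1
  have hfd : FiniteDimensional K₀⟮t⟯ F₀ :=
    Module.rank_lt_aleph0_iff.1 (lt_of_le_of_lt hrank (Cardinal.natCast_lt_aleph0))
  have hle : Module.finrank K₀⟮t⟯ F₀ ≤ Module.finrank K⟮X.ι t⟯ F := by
    have h1 : (Module.finrank K₀⟮t⟯ F₀ : Cardinal) ≤ (Module.finrank K⟮X.ι t⟯ F : ℕ) := by
      rw [Module.finrank_eq_rank]; exact hrank
    exact_mod_cast h1
  refine ⟨(hR.memO t).2 hC.t_mem, ?_, hfd, ?_, ?_⟩
  · rw [e]; exact hC.trans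
  · obtain ⟨b, hb⟩ := hC.deg
    rw [e]
    exact ⟨fun i => b (Fin.castLE hle i), hb.comp _ (Fin.castLE_injective hle)⟩
  · rw [e]; exact hC.sep

end Fermat.Agent.S36.GRE
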