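import Fermat.Agent.S36.GRE.Interface
import Fermat.Agent.ES.Mid.CongInertia

/-!
# S36 / GRE : [E2] inertia preserves the Gauss valuation ring and acts trivially on its residue field
(`Stmt_GalRedInst`)
-/

set_option autoImplicit false

namespace Fermat.Agent.S36.GRE

open Fermat.Agent
open Fermat.Agent.S24 (Qbar FF)
open Fermat.Agent.INJ (RedData)
open Fermat.Agent.INJ.Inst (kA IsGauss)
open Fermat.Agent.ES.Mid (GQ gal coe_gal)
open Fermat.Agent.ES.Mid.J (resHom subtype_comp_resHom residue_comp_resHom)
open ModularCurve (coeffMap coeffMap_coeffMap)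

theorem galRedInst : Stmt_GalRedInst := by
  intro A N _ L D hG σ hσ x hx
  obtain ⟨f, g, hg, hxg⟩ := hG.exists_ratio x hx
  have hz : ∀ y : LaurentSeries A, coeffMap A.subtype (coeffMap (resHom hσ) y) =
      coeffMap (σ : Qbar →+* Qbar) (coeffMap A.subtype y) := by
    intro y
    rw [coeffMap_coeffMap, coeffMap_coeffMap, subtype_comp_resHom]
  have hred : ∀ y : LaurentSeries A, coeffMap (IsLocalRing.residue A) (coeffMap (resHom hσ) y) =
      coeffMap (IsLocalRing.residue A) y := by
    intro y
    rw [coeffMap_coeffMap, residue_comp_resHom]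
  have h1 := hG.ratio x f g hg hxg
  have h2 := hG.ratio (gal N σ x) (coeffMap (resHom hσ) f) (coeffMap (resHom hσ) g)
    (by rw [hred]; exact hg)
    (by rw [coe_gal, hz, hz, ← map_mul, hxg])
  refine ⟨h2.1, Subtype.ext ?_⟩
  rw [h2.2, h1.2, hred, hred]

end Fermat.Agent.S36.GRE

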