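import Fermat.Agent.S36.GRE.Abs

/-!
# S36 / GRE-A4 : families independent over `K₀(t)` stay independent over `K(t)`

`indepUp (h : Stmt_Proj) : Stmt_IndepUp`.

Reduce to polynomial coefficients on both sides; a relation `∑_j P_j(ι t) ι(f j) = 0` with
`P_j : K[X]` gives, for every `K₀`-linear functional `l` of `K`, the relation
`∑_j (l ∘ P_j)(t) f j = 0`, whence `l ∘ P_j = 0` for all `l`, i.e. `P_j = 0`.
-/

set_option autoImplicit false

namespace Fermat.Agent.S36.GRE

open Polynomial IntermediateField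
open Fermat.Agent.INJ
open scoped IntermediateField.algebraAdjoinAdjoin

theorem IndepUp_li_iff {K F : Type} [Field K] [Field F] [Algebra K F] (x : F) {ι : Type}
    (v : ι → F) :
    LinearIndependent (Algebra.adjoin K {x}) v ↔ LinearIndependent K⟮x⟯ v :=
  LinearIndependent.iff_fractionRing (Algebra.adjoin K {x}) K⟮x⟯

section

variable {K₀ K F₀ F G : Type} [Field K₀] [Field K] [Field F₀] [Field F] [Algebra K₀ K]
  [Algebra K₀ F₀] [Algebra K F] [Group G] [MulSemiringAction G K]

theorem IndepUp_ι_aeval (X : BC K₀ K F₀ F G) (t : F₀) (p : K₀[X]) :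
    X.ι (aeval t p) = aeval (X.ι t) (p.map (algebraMap K₀ K)) := by
  rw [aeval_def, hom_eval₂, aeval_def, eval₂_map]
  congr 1
  ext a
  exact X.ι_const a

theorem IndepUp_transcendental (X : BC K₀ K F₀ F G) {t : F₀} (h : Transcendental K (X.ι t)) :
    Transcendental K₀ t := by
  rw [transcendental_iff] at h ⊢
  intro p hp
  have h1 := h (p.map (algebraMap K₀ K)) (by rw [← IndepUp_ι_aeval, hp, map_zero])
  exact (Polynomial.map_eq_zero_iff (algebraMap K₀ K).injective).1 h1

end

/-- **[A4]** -/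
theorem indepUp (h : Stmt_Proj) : Stmt_IndepUp := by
  intro K₀ K F₀ F G _ _ _ _ _ _ _ _ _ X t htr n f hf
  have htr0 : Transcendental K₀ t := IndepUp_transcendental X htr
  rw [← IndepUp_li_iff] at hf ⊢
  rw [Fintype.linearIndependent_iff] at hf ⊢
  intro g hg
  have hP : ∀ i, ∃ P : K[X], aeval (X.ι t) P = (g i : F) := by
    intro i
    have h0 : (g i : F) ∈ (aeval (R := K) (X.ι t)).range := by
      rw [← Algebra.adjoin_singleton_eq_range_aeval]
      exact (g i).2
    exact h0
  choose P hP using hP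
  suffices hz : ∀ i, P i = 0 by
    intro i
    apply Subtype.ext
    rw [← hP i, hz i, map_zero]
    rfl
  set d := (Finset.univ.sup fun i => (P i).natDegree) + 1 with hd
  have hdeg : ∀ i, (P i).natDegree < d := fun i =>
    Nat.lt_succ_of_le (Finset.le_sup (f := fun i => (P i).natDegree) (Finset.mem_univ i))
  have hsum : ∑ x ∈ (Finset.univ : Finset (Fin n)) ×ˢ Finset.range d,
      algebraMap K F ((P x.1).coeff x.2) * X.ι (t ^ x.2 * f x.1) = 0 := by
    rw [Finset.sum_product, ← hg]
    refine Finset.sum_congr rfl fun i _ => ?_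
    have e1 : g i • X.ι (f i) = (g i : F) * X.ι (f i) := rfl
    rw [e1, ← hP i, aeval_eq_sum_range' (hdeg i), Finset.sum_mul]
    refine Finset.sum_congr rfl fun m _ => ?_
    rw [map_mul, map_pow, Algebra.smul_def]
    ring
  intro i
  ext m
  rw [coeff_zero, ← Module.forall_dual_apply_eq_zero_iff K₀]
  intro l
  have h1 := h K₀ K F₀ F G X l (Fin n × ℕ) _ (fun x => (P x.1).coeff x.2)
    (fun x => t ^ x.2 * f x.1) hsum
  rw [Finset.sum_product] at h1
  let Q : Fin n → K₀[X] := fun j => ∑ m ∈ Finset.range d, C (l ((P j).coeff m)) * Polynomial.X ^ m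
  have hQ : ∀ j, aeval t (Q j) ∈ Algebra.adjoin K₀ {t} := by
    intro j
    rw [Algebra.adjoin_singleton_eq_range_aeval]
    exact ⟨_, rfl⟩
  have h2 := hf (fun j => ⟨aeval t (Q j), hQ j⟩) (by
    rw [← h1]
    refine Finset.sum_congr rfl fun j _ => ?_
    have e1 : (⟨aeval t (Q j), hQ j⟩ : Algebra.adjoin K₀ {t}) • f j = aeval t (Q j) * f j := rfl
    rw [e1]
    simp only [Q, map_sum, map_mul, aeval_C, map_pow, aeval_X, Finset.sum_mul]
    refine Finset.sum_congr rfl fun m _ => ?_
    ring) i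
  have h3 : aeval t (Q i) = 0 := congrArg Subtype.val h2
  have h4 : Q i = 0 := (transcendental_iff.1 htr0) _ h3
  have h5 := congrArg (fun p => p.coeff m) h4
  simp only [Q, finsetSum_coeff, coeff_C_mul_X_pow, coeff_zero] at h5
  by_cases hm : m < d
  · rw [Finset.sum_ite_eq (Finset.range d) m] at h5
    rwa [if_pos (Finset.mem_range.2 hm)] at h5
  · rw [coeff_eq_zero_of_natDegree_lt (lt_of_lt_of_le (hdeg i) (not_lt.1 hm)), map_zero]

end Fermat.Agent.S36.GRE
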