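import Fermat.Agent.S36.GRE.Abs

/-!
# S36 / GRE : [A2] integrality over `K[t]` descends to `K₀[t]`
-/

set_option autoImplicit false

namespace Fermat.Agent.S36.GRE

open Polynomial IntermediateField
open Fermat.Agent.INJ

theorem IntDesc_isIntegral_of_relation {R S : Type*} [CommRing R] [CommRing S] [Algebra R S] (y : S)
    (d : ℕ) (c : Fin d → R)
    (h : y ^ d + ∑ i : Fin d, algebraMap R S (c i) * y ^ (i : ℕ) = 0) : IsIntegral R y := by
  refine ⟨X ^ d + ∑ i : Fin d, C (c i) * X ^ (i : ℕ), monic_X_pow_add (degree_sum_fin_lt c), ?_⟩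
  simpa [eval₂_add, eval₂_finsetSum] using h

/-- an integral equation over `K[y]`, written with polynomials `P e ∈ K[X]`, `P d = 1`. -/
theorem IntDesc_exists_rel {K F : Type*} [Field K] [Field F] [Algebra K F] {x y : F}
    (h : IsInt K y x) :
    ∃ (d : ℕ) (P : ℕ → K[X]), P d = 1 ∧ ∑ e ∈ Finset.range (d + 1), aeval y (P e) * x ^ e = 0 := by
  classical
  obtain ⟨p, hp, hpx⟩ := h
  have hex : ∀ e : ℕ, ∃ P : K[X], aeval y P = ((p.coeff e : Algebra.adjoin K {y}) : F) := by
    intro e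
    have h1 : ∀ w ∈ Algebra.adjoin K {y}, ∃ P : K[X], aeval y P = w := by
      intro w hw
      rw [Algebra.adjoin_singleton_eq_range_aeval] at hw
      exact hw
    exact h1 _ (p.coeff e).2
  choose P hP using hex
  refine ⟨p.natDegree, fun e => if e = p.natDegree then 1 else P e, if_pos rfl, ?_⟩
  rw [Polynomial.eval₂_eq_sum_range] at hpx
  rw [← hpx]
  refine Finset.sum_congr rfl fun e _ => ?_
  congr 1
  show aeval y (if e = p.natDegree then 1 else P e) = _
  by_cases he : e = p.natDegree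
  · rw [if_pos he, map_one, he, hp.coeff_natDegree, map_one]
  · rw [if_neg he, hP]
    rfl

theorem intDesc (h : Stmt_Proj) : Stmt_IntDesc := by
  intro K₀ K F₀ F G _ _ _ _ _ _ _ _ _ X t z hz
  obtain ⟨l, hl⟩ := LinearMap.exists_leftInverse_of_injective (Algebra.linearMap K₀ K)
    (LinearMap.ker_eq_bot.2 (algebraMap K₀ K).injective)
  have hl1 : l 1 = 1 := by
    have := LinearMap.congr_fun hl 1
    simpa using this
  obtain ⟨d, P, hPd, hrel⟩ := IntDesc_exists_rel hz
  -- a common bound for the degrees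
  obtain ⟨B, hB⟩ : ∃ B : ℕ, ∀ e ∈ Finset.range (d + 1), (P e).natDegree < B :=
    ⟨(Finset.range (d + 1)).sup (fun e => (P e).natDegree) + 1, fun e he =>
      Nat.lt_succ_of_le (Finset.le_sup (f := fun e => (P e).natDegree) he)⟩
  have h1 : ∑ i ∈ Finset.range (d + 1) ×ˢ Finset.range B,
      algebraMap K F ((P i.1).coeff i.2) * X.ι (t ^ i.2 * z ^ i.1) = 0 := by
    rw [Finset.sum_product, ← hrel]
    refine Finset.sum_congr rfl fun e he => ?_
    rw [Polynomial.aeval_eq_sum_range' (hB e he), Finset.sum_mul]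
    refine Finset.sum_congr rfl fun m _ => ?_
    rw [map_mul, map_pow, map_pow, Algebra.smul_def, mul_assoc]
  have h2 := h K₀ K F₀ F G X l (ℕ × ℕ) _ _ _ h1
  rw [Finset.sum_product] at h2
  -- the coefficients
  have hmem : ∀ e : ℕ, ∑ m ∈ Finset.range B, algebraMap K₀ F₀ (l ((P e).coeff m)) * t ^ m ∈
      Algebra.adjoin K₀ {t} := fun e =>
    Subalgebra.sum_mem _ fun m _ => mul_mem (Subalgebra.algebraMap_mem _ _)
      (pow_mem (Algebra.self_mem_adjoin_singleton _ _) m)
  have hB0 : 0 < B := lt_of_le_of_lt (Nat.zero_le _) (hB d (Finset.self_mem_range_succ d))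
  have htop : ∑ m ∈ Finset.range B, algebraMap K₀ F₀ (l ((P d).coeff m)) * t ^ m = 1 := by
    rw [Finset.sum_eq_single_of_mem 0 (Finset.mem_range.2 hB0)]
    · rw [hPd, Polynomial.coeff_one_zero, hl1, map_one, pow_zero, mul_one]
    · intro m _ hm
      rw [hPd, Polynomial.coeff_one, if_neg hm, map_zero, map_zero, zero_mul]
  refine IntDesc_isIntegral_of_relation (R := Algebra.adjoin K₀ {t}) z d
    (fun e => ⟨_, hmem e⟩) ?_
  rw [← h2, Finset.sum_range_succ, add_comm]
  congr 1
  · rw [Fin.sum_univ_eq_sum_range (fun e => algebraMap (Algebra.adjoin K₀ {t}) F₀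
      ⟨_, hmem e⟩ * z ^ e) d]
    refine Finset.sum_congr rfl fun e _ => ?_
    show (∑ m ∈ Finset.range B, algebraMap K₀ F₀ (l ((P e).coeff m)) * t ^ m) * z ^ e = _
    rw [Finset.sum_mul]
    refine Finset.sum_congr rfl fun m _ => ?_
    rw [mul_assoc]
  · have : ∑ m ∈ Finset.range B, algebraMap K₀ F₀ (l ((P d).coeff m)) * (t ^ m * z ^ d) =
        (∑ m ∈ Finset.range B, algebraMap K₀ F₀ (l ((P d).coeff m)) * t ^ m) * z ^ d := by
      rw [Finset.sum_mul]
      refine Finset.sum_congr rfl fun m _ => ?_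
      rw [mul_assoc]
    rw [this, htop, one_mul]

end Fermat.Agent.S36.GRE
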