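import Fermat.Agent.S36.GRE.Abs
import Fermat.Agent.INJ.P1
import Fermat.Agent.INJ.P2
import Fermat.Agent.INJ.P4

/-!
# S36 / GRE / C2 : integral over `A₀[t]` iff in `O₀` and integral over `K₀[t]` (helper54)
-/

set_option autoImplicit false

namespace Fermat.Agent.S36.GRE

open Polynomial IntermediateField
open Fermat.Agent.INJ
open Fermat.Agent.KL (PolyR cst)

section

variable {A₀ K₀ F₀ k Fb : Type} [CommRing A₀] [Field K₀] [Field F₀] [Algebra A₀ K₀] [Algebra K₀ F₀]
  [Algebra A₀ F₀] [IsScalarTower A₀ K₀ F₀] [Field k] [Field Fb] [Algebra k Fb]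

theorem IntOverA_mem_O (D₀ : RedData K₀ F₀ k Fb) (t : F₀)
    (hA : ∀ a : K₀, a ∈ D₀.A ↔ a ∈ (algebraMap A₀ K₀).range) (ht : t ∈ D₀.O) :
    ∀ y ∈ PolyR A₀ t, y ∈ D₀.O := by
  intro y hy
  induction hy using Algebra.adjoin_induction with
  | mem y hy => rw [Set.mem_singleton_iff] at hy; subst hy; exact ht
  | algebraMap a =>
    rw [IsScalarTower.algebraMap_apply A₀ K₀ F₀, D₀.mem_iff, hA]
    exact ⟨a, rfl⟩
  | add y z _ _ hy hz => exact add_mem hy hz
  | mul y z _ _ hy hz => exact mul_mem hy hz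

theorem IntOverA_mem_K (t : F₀) : ∀ y ∈ PolyR A₀ t, y ∈ Algebra.adjoin K₀ {t} := by
  intro y hy
  induction hy using Algebra.adjoin_induction with
  | mem y hy => exact Algebra.subset_adjoin hy
  | algebraMap a =>
    rw [IsScalarTower.algebraMap_apply A₀ K₀ F₀]
    exact Subalgebra.algebraMap_mem _ _
  | add y z _ _ hy hz => exact add_mem hy hz
  | mul y z _ _ hy hz => exact mul_mem hy hz

theorem IntOverA_aeval_mem (D₀ : RedData K₀ F₀ k Fb) (t : F₀)
    (hA : ∀ a : K₀, a ∈ D₀.A ↔ a ∈ (algebraMap A₀ K₀).range) (Q : (D₀.A)[X]) :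
    aeval t (Q.map D₀.A.subtype) ∈ PolyR A₀ t := by
  induction Q using Polynomial.induction_on' with
  | add p q hp hq =>
    rw [Polynomial.map_add, map_add]
    exact add_mem hp hq
  | monomial n a =>
    rw [Polynomial.map_monomial, aeval_monomial]
    obtain ⟨a', ha'⟩ := (hA _).1 a.2
    have h1 : algebraMap K₀ F₀ (D₀.A.subtype a) = algebraMap A₀ F₀ a' := by
      rw [IsScalarTower.algebraMap_apply A₀ K₀ F₀, ha']
      rfl
    rw [h1]
    exact mul_mem (Subalgebra.algebraMap_mem _ _)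
      (pow_mem (Algebra.self_mem_adjoin_singleton A₀ t) n)

end

theorem intOverA : Stmt_IntOverA := by
  intro A₀ K₀ F₀ k Fb _ _ _ _ _ _ _ _ _ _ D₀ t hA hC x
  constructor
  · rintro ⟨p, hp, hpx⟩
    constructor
    · let φ : PolyR A₀ t →+* D₀.O :=
        { toFun := fun y => ⟨y.1, IntOverA_mem_O D₀ t hA hC.t_mem y.1 y.2⟩
          map_one' := rfl
          map_mul' := fun _ _ => rfl
          map_zero' := rfl
          map_add' := fun _ _ => rfl }
      have h1 : IsIntegral D₀.O x := by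
        refine ⟨p.map φ, hp.map φ, ?_⟩
        rw [Polynomial.eval₂_map]
        exact hpx
      obtain ⟨y, hy⟩ := IsIntegrallyClosed.isIntegral_iff.mp h1
      rw [← hy]
      exact y.2
    · let φ : PolyR A₀ t →+* Algebra.adjoin K₀ {t} :=
        { toFun := fun y => ⟨y.1, IntOverA_mem_K t y.1 y.2⟩
          map_one' := rfl
          map_mul' := fun _ _ => rfl
          map_zero' := rfl
          map_add' := fun _ _ => rfl }
      refine ⟨p.map φ, hp.map φ, ?_⟩
      rw [Polynomial.eval₂_map]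
      exact hpx
  · rintro ⟨hx, hxi⟩
    obtain ⟨-, hG2, -, hG4, -⟩ := stmt_Gauss K₀ F₀ k Fb D₀ t hC.t_mem hC.trans
    have hint := P4_isIntegral_field hxi
    have hcoef : ∀ i : ℕ, ∃ c : PolyR A₀ t,
        (((minpoly K₀⟮t⟯ x).coeff i : K₀⟮t⟯) : F₀) = algebraMap (PolyR A₀ t) F₀ c := by
      intro i
      obtain ⟨P, hP⟩ := P4_coeff_poly hG4 hxi i
      have hmem := P4_coeff_mem stmt_Gauss (stmt_Ortho stmt_Gauss) hC hx i
      rw [hP] at hmem
      obtain ⟨Q, rfl⟩ := hG2 P hmem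
      exact ⟨⟨_, IntOverA_aeval_mem D₀ t hA Q⟩, hP⟩
    choose c hc using hcoef
    refine P4_isIntegral_of_relation x (minpoly K₀⟮t⟯ x).natDegree (fun i => c i) ?_
    rw [← P4_relation hint]
    congr 1
    refine Finset.sum_congr rfl fun i _ => ?_
    rw [hc]

end Fermat.Agent.S36.GRE
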