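import Fermat.Agent.S36.GRE.Abs

/-!
# S36 / GRE / A3 : normalisation commutes with the extension of constants
-/

set_option autoImplicit false

namespace Fermat.Agent.S36.GRE

open Polynomial IntermediateField
open Fermat.Agent.INJ

section IntSpanAux

variable {K₀ K F₀ F G : Type} [Field K₀] [Field K] [Field F₀] [Field F] [Algebra K₀ K]
  [Algebra K₀ F₀] [Algebra K F] [Group G] [MulSemiringAction G K]

/-- every element of `F` is a combination of elements of `ι F₀` with `K₀`-independent
coefficients. -/
theorem IntSpan_indep_repr (X : BC K₀ K F₀ F G) (y : F) :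
    ∃ (n : ℕ) (c : Fin n → K) (z : Fin n → F₀), LinearIndependent K₀ c ∧
      y = ∑ i, algebraMap K F (c i) * X.ι (z i) := by
  obtain ⟨n, c, z, hy⟩ := X.span y
  have : Module.Finite K₀ (Submodule.span K₀ (Set.range c)) :=
    Module.Finite.span_of_finite K₀ (Set.finite_range c)
  let b := Module.finBasis K₀ (Submodule.span K₀ (Set.range c))
  let ci : Fin n → Submodule.span K₀ (Set.range c) := fun i => ⟨c i, Submodule.subset_span ⟨i, rfl⟩⟩
  have hci : ∀ i, c i = ∑ j, algebraMap K₀ K (b.repr (ci i) j) * ((b j : _) : K) := by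
    intro i
    have h1 := congrArg (fun v : Submodule.span K₀ (Set.range c) => (v : K)) (b.sum_repr (ci i))
    simp only [AddSubmonoidClass.coe_finsetSum, Submodule.coe_smul, Algebra.smul_def] at h1
    exact h1.symm
  refine ⟨_, fun j => ((b j : _) : K), fun j => ∑ i, algebraMap K₀ F₀ (b.repr (ci i) j) * z i,
    ?_, ?_⟩
  · exact b.linearIndependent.map' (Submodule.span K₀ (Set.range c)).subtype
      (Submodule.ker_subtype _)
  · rw [hy]
    have h2 : ∀ i, algebraMap K F (c i) * X.ι (z i)
        = ∑ j, algebraMap K F ((b j : _) : K) *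
            X.ι (algebraMap K₀ F₀ (b.repr (ci i) j) * z i) := by
      intro i
      conv_lhs => rw [hci i]
      rw [map_sum, Finset.sum_mul]
      refine Finset.sum_congr rfl fun j _ => ?_
      rw [map_mul, map_mul, X.ι_const]
      ring
    simp only [h2]
    rw [Finset.sum_comm]
    refine Finset.sum_congr rfl fun j _ => ?_
    rw [map_sum, Finset.mul_sum]

/-- `g σ` preserves `K[ι t]`. -/
theorem IntSpan_g_mem (X : BC K₀ K F₀ F G) (t : F₀) (σ : G) (x : F)
    (hx : x ∈ Algebra.adjoin K {X.ι t}) : X.g σ x ∈ Algebra.adjoin K {X.ι t} := by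
  induction hx using Algebra.adjoin_induction with
  | mem x hx =>
    rw [Set.mem_singleton_iff] at hx
    rw [hx, X.g_ι]
    exact Algebra.subset_adjoin rfl
  | algebraMap r =>
    rw [X.g_const]
    exact Subalgebra.algebraMap_mem _ _
  | add x y _ _ hx hy =>
    rw [map_add]
    exact Subalgebra.add_mem _ hx hy
  | mul x y _ _ hx hy =>
    rw [map_mul]
    exact Subalgebra.mul_mem _ hx hy

/-- `g σ` preserves integrality over `K[ι t]`. -/
theorem IntSpan_g_isInt (X : BC K₀ K F₀ F G) (t : F₀) (σ : G) (y : F)
    (hy : IsInt K (X.ι t) y) : IsInt K (X.ι t) (X.g σ y) := by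
  unfold IsInt at hy ⊢
  exact IsIntegral.map_of_comp_eq
    ((X.g σ).restrict (Algebra.adjoin K {X.ι t}) (Algebra.adjoin K {X.ι t})
      (IntSpan_g_mem X t σ)) (X.g σ) (by ext x; rfl) hy

/-- Artin: the conjugates of a `K₀`-independent family are `K`-independent functions on `G`. -/
theorem IntSpan_artin (X : BC K₀ K F₀ F G) (n : ℕ) (c : Fin n → K) (hc : LinearIndependent K₀ c) :
    LinearIndependent K (fun i : Fin n => (fun σ : G => σ • c i)) := by
  classical
  have h1 : LinearIndependent (FixedPoints.subfield G K) c := by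
    rw [Fintype.linearIndependent_iff]
    intro a ha i
    have h2 : ∀ i, ∃ a' : K₀, algebraMap K₀ K a' = (a i : K) := fun i =>
      X.fixK (a i : K) (fun σ => (a i).2 σ)
    choose a' ha' using h2
    have h3 : ∑ i, a' i • c i = 0 := by
      rw [← ha]
      refine Finset.sum_congr rfl fun i _ => ?_
      rw [Algebra.smul_def, ha']
      rfl
    have h4 := (Fintype.linearIndependent_iff.1 hc) a' h3 i
    have h5 := ha' i
    rw [h4, map_zero] at h5
    exact Subtype.ext h5.symm
  have h2 : LinearIndepOn (FixedPoints.subfield G K) id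
      ((Finset.univ.image c : Finset K) : Set K) := by
    rw [Finset.coe_image, Finset.coe_univ, Set.image_univ]
    exact h1.linearIndepOn_id
  have h3 := FixedPoints.linearIndependent_smul_of_linearIndependent G K h2
  have hinj : Function.Injective c := hc.injective
  have h4 := LinearIndependent.comp h3
    (fun i : Fin n => (⟨c i, by simp⟩ : ((Finset.univ.image c : Finset K) : Set K)))
    (fun i j hij => hinj (congrArg Subtype.val hij))
  exact h4

/-- the conjugates of a `K₀`-independent family span `K ^ n`. -/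
theorem IntSpan_span_top (X : BC K₀ K F₀ F G) (n : ℕ) (c : Fin n → K)
    (hc : LinearIndependent K₀ c) :
    Submodule.span K (Set.range (fun σ : G => (fun i : Fin n => σ • c i))) = ⊤ := by
  classical
  by_contra hne
  obtain ⟨f, hf0, hf⟩ := Submodule.exists_le_ker_of_lt_top _ (lt_top_iff_ne_top.2 hne)
  have h1 : ∀ σ : G, ∑ i, (σ • c i) • f (fun j => if i = j then 1 else 0) = 0 := by
    intro σ
    rw [← LinearMap.pi_apply_eq_sum_univ f (fun i => σ • c i)]
    exact hf (Submodule.subset_span ⟨σ, rfl⟩)
  have h2 : ∑ i, f (fun j => if i = j then 1 else 0) • (fun σ : G => σ • c i) = 0 := by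
    funext σ
    rw [Finset.sum_apply, Pi.zero_apply]
    refine Eq.trans ?_ (h1 σ)
    refine Finset.sum_congr rfl fun i _ => ?_
    rw [Pi.smul_apply, smul_eq_mul, smul_eq_mul, mul_comm]
  have h3 := (Fintype.linearIndependent_iff.1 (IntSpan_artin X n c hc)) _ h2
  apply hf0
  refine LinearMap.ext fun x => ?_
  rw [LinearMap.pi_apply_eq_sum_univ f]
  simp [h3]

end IntSpanAux

theorem intSpan (h : Stmt_IntDesc) : Stmt_IntSpan := by
  intro K₀ K F₀ F G _ _ _ _ _ _ _ _ _ X t y hy
  classical
  obtain ⟨n, c, z, hc, hyc⟩ := IntSpan_indep_repr X y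
  refine ⟨n, c, z, ?_, hyc⟩
  have hconst : ∀ a : K, IsIntegral (Algebra.adjoin K {X.ι t}) (algebraMap K F a) := by
    intro a
    exact isIntegral_algebraMap
      (x := (⟨algebraMap K F a, Subalgebra.algebraMap_mem _ a⟩ : Algebra.adjoin K {X.ι t}))
  have key : ∀ v : Fin n → K,
      v ∈ Submodule.span K (Set.range (fun σ : G => (fun i : Fin n => σ • c i))) →
      IsIntegral (Algebra.adjoin K {X.ι t}) (∑ i, algebraMap K F (v i) * X.ι (z i)) := by
    intro v hv
    induction hv using Submodule.span_induction with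
    | mem v hv =>
      obtain ⟨σ, rfl⟩ := hv
      have h1 : X.g σ y = ∑ i, algebraMap K F (σ • c i) * X.ι (z i) := by
        rw [hyc, map_sum]
        refine Finset.sum_congr rfl fun i _ => ?_
        rw [map_mul, X.g_const, X.g_ι]
      rw [← h1]
      exact IntSpan_g_isInt X t σ y hy
    | zero =>
      simp only [Pi.zero_apply, map_zero, zero_mul, Finset.sum_const_zero]
      exact isIntegral_zero
    | add v w _ _ hv hw =>
      have h1 : ∑ i, algebraMap K F ((v + w) i) * X.ι (z i)
          = ∑ i, algebraMap K F (v i) * X.ι (z i) + ∑ i, algebraMap K F (w i) * X.ι (z i) := by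
        rw [← Finset.sum_add_distrib]
        refine Finset.sum_congr rfl fun i _ => ?_
        rw [Pi.add_apply, map_add, add_mul]
      rw [h1]
      exact hv.add hw
    | smul a v _ hv =>
      have h1 : ∑ i, algebraMap K F ((a • v) i) * X.ι (z i)
          = algebraMap K F a * ∑ i, algebraMap K F (v i) * X.ι (z i) := by
        rw [Finset.mul_sum]
        refine Finset.sum_congr rfl fun i _ => ?_
        rw [Pi.smul_apply, smul_eq_mul, map_mul, mul_assoc]
      rw [h1]
      exact (hconst a).mul hv
  intro k
  apply h K₀ K F₀ F G X t (z k)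
  have h1 := key (Pi.single k 1) (by rw [IntSpan_span_top X n c hc]; exact Submodule.mem_top)
  have h2 : ∑ i, algebraMap K F ((Pi.single k 1 : Fin n → K) i) * X.ι (z i) = X.ι (z k) := by
    rw [Finset.sum_eq_single k]
    · rw [Pi.single_eq_same, map_one, one_mul]
    · intro i _ hik
      rw [Pi.single_eq_of_ne hik, map_zero, zero_mul]
    · intro hk
      exact absurd (Finset.mem_univ k) hk
  rw [h2] at h1
  exact h1

end Fermat.Agent.S36.GRE
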