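import Fermat.Agent.S36.GRE.Abs2

/-!
# S36 / GRE / C6 : the lifting property (helper54)
-/

set_option autoImplicit false

namespace Fermat.Agent.S36.GRE

open Polynomial IntermediateField
open Fermat.Agent.INJ
open Fermat.Agent.KL (PolyR cst)

section

variable {K F k Fb : Type} [Field K] [Field F] [Algebra K F] [Field k] [Field Fb] [Algebra k Fb]

/-- `rd b = 0 ↔ v(b) < 1` on `O`. -/
theorem LiftAbs_rd_eq_zero_iff (D : RedData K F k Fb) {b : F} (hb : b ∈ D.O) :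
    D.rd b = 0 ↔ D.O.valuation b < 1 := by
  constructor
  · intro h
    rcases lt_or_eq_of_le ((D.O.valuation_le_one_iff b).2 hb) with h1 | h1
    · exact h1
    · exfalso
      have hu : IsUnit (⟨b, hb⟩ : D.O) := (D.O.valuation_eq_one_iff ⟨b, hb⟩).2 h1
      obtain ⟨u, hu⟩ := hu
      have h2 : D.rO (u : D.O) * D.rO ((u⁻¹ : (D.O)ˣ) : D.O) = 1 := by
        rw [← map_mul, Units.mul_inv, map_one]
      rw [hu, ← RedData.rd_of_mem hb, h, zero_mul] at h2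
      exact zero_ne_one h2
  · intro h
    by_contra h0
    have h1 : b⁻¹ ∈ D.O := RedData.inv_mem_of_rd_ne_zero h0
    have h2 := (D.O.valuation_le_one_iff b⁻¹).2 h1
    have hb0 : b ≠ 0 := by
      rintro rfl
      exact h0 RedData.rd_zero
    have h3 : D.O.valuation b * D.O.valuation b⁻¹ = 1 := by
      rw [← map_mul, mul_inv_cancel₀ hb0, map_one]
    have h4 : D.O.valuation b * D.O.valuation b⁻¹ < 1 := by
      calc D.O.valuation b * D.O.valuation b⁻¹ ≤ D.O.valuation b * 1 := by gcongr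
        _ = D.O.valuation b := mul_one _
        _ < 1 := h
    exact absurd h3 (ne_of_lt h4)

end

section

variable {A₀ K₀ F₀ k Fb : Type} [CommRing A₀] [Field K₀] [Field F₀] [Algebra A₀ K₀] [Algebra K₀ F₀]
  [Algebra A₀ F₀] [IsScalarTower A₀ K₀ F₀] [Field k] [Field Fb] [Algebra k Fb]

theorem LiftAbs_poly (D₀ : RedData K₀ F₀ k Fb) (t : F₀)
    (hA : ∀ a : K₀, a ∈ D₀.A ↔ a ∈ (algebraMap A₀ K₀).range) (ht : t ∈ D₀.O) :
    ∀ b ∈ PolyR A₀ t, b ∈ D₀.O ∧ D₀.rd b ∈ Algebra.adjoin k {D₀.rd t} := by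
  intro b hb
  induction hb using Algebra.adjoin_induction with
  | mem y hy =>
    rw [Set.mem_singleton_iff] at hy
    subst hy
    exact ⟨ht, Algebra.self_mem_adjoin_singleton k _⟩
  | algebraMap a =>
    have ha : algebraMap A₀ K₀ a ∈ D₀.A := (hA _).2 ⟨a, rfl⟩
    rw [IsScalarTower.algebraMap_apply A₀ K₀ F₀]
    refine ⟨RedData.algebraMap_mem ha, ?_⟩
    rw [RedData.rd_algebraMap ha]
    exact Subalgebra.algebraMap_mem _ _
  | add y z _ _ hy hz =>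
    exact ⟨add_mem hy.1 hz.1, by rw [RedData.rd_add hy.1 hz.1]; exact add_mem hy.2 hz.2⟩
  | mul y z _ _ hy hz =>
    exact ⟨mul_mem hy.1 hz.1, by rw [RedData.rd_mul hy.1 hz.1]; exact mul_mem hy.2 hz.2⟩

/-- the reduction `A₀[t] → k[tbar]`. -/
noncomputable def LiftAbs_psi (D₀ : RedData K₀ F₀ k Fb) (t : F₀)
    (hA : ∀ a : K₀, a ∈ D₀.A ↔ a ∈ (algebraMap A₀ K₀).range) (ht : t ∈ D₀.O) :
    PolyR A₀ t →+* Algebra.adjoin k {D₀.rd t} where
  toFun b := ⟨D₀.rd b.1, (LiftAbs_poly D₀ t hA ht b.1 b.2).2⟩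
  map_one' := Subtype.ext RedData.rd_one
  map_mul' a b := Subtype.ext (RedData.rd_mul (LiftAbs_poly D₀ t hA ht a.1 a.2).1
    (LiftAbs_poly D₀ t hA ht b.1 b.2).1)
  map_zero' := Subtype.ext RedData.rd_zero
  map_add' a b := Subtype.ext (RedData.rd_add (LiftAbs_poly D₀ t hA ht a.1 a.2).1
    (LiftAbs_poly D₀ t hA ht b.1 b.2).1)

theorem LiftAbs_aeval (D₀ : RedData K₀ F₀ k Fb) (t : F₀)
    (hA : ∀ a : K₀, a ∈ D₀.A ↔ a ∈ (algebraMap A₀ K₀).range) (ht : t ∈ D₀.O) {z : F₀}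
    (hz : z ∈ D₀.O) (p : (PolyR A₀ t)[X]) :
    aeval z p ∈ D₀.O ∧ D₀.rd (aeval z p) = aeval (D₀.rd z) (p.map (LiftAbs_psi D₀ t hA ht)) := by
  induction p using Polynomial.induction_on' with
  | add p q hp hq =>
    rw [Polynomial.map_add, map_add, map_add]
    exact ⟨add_mem hp.1 hq.1, by rw [RedData.rd_add hp.1 hq.1, hp.2, hq.2]⟩
  | monomial n a =>
    rw [Polynomial.map_monomial, aeval_monomial, aeval_monomial]
    have ha : algebraMap (PolyR A₀ t) F₀ a ∈ D₀.O := (LiftAbs_poly D₀ t hA ht a.1 a.2).1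
    refine ⟨mul_mem ha (pow_mem hz n), ?_⟩
    rw [RedData.rd_mul ha (pow_mem hz n), RedData.rd_pow hz]
    rfl

end

theorem liftAbs (h2 : Stmt_IntOverA) : Stmt_LiftAbs := by
  intro A₀ K₀ F₀ k Fb _ _ _ _ _ _ _ _ _ _ D₀ t hA hC hN z hz
  rintro ⟨p, hp, hpz⟩
  obtain ⟨h3, h4⟩ := LiftAbs_aeval D₀ t hA hC.t_mem hz p
  have h5 : D₀.rd (aeval z p) = 0 := (LiftAbs_rd_eq_zero_iff D₀ h3).2 hpz
  have hint : IsInt k (D₀.rd t) (D₀.rd z) := by
    refine ⟨p.map (LiftAbs_psi D₀ t hA hC.t_mem), hp.map _, ?_⟩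
    rw [← Polynomial.aeval_def, ← h4, h5]
  obtain ⟨y, hyO, hyint, hy⟩ := hN _ hint
  refine ⟨y, (h2 A₀ K₀ F₀ k Fb D₀ t hA hC y).2 ⟨hyO, hyint⟩, ?_⟩
  rw [← LiftAbs_rd_eq_zero_iff D₀ (sub_mem hz hyO), RedData.rd_sub hz hyO, hy, sub_self]

end Fermat.Agent.S36.GRE
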