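import Fermat.Agent.S36.GRE.Interface

/-!
# S36 / GRE : [E4] `Val.OA A N` is the restriction of `D.O`
-/

set_option autoImplicit false
set_option synthInstance.maxHeartbeats 400000
set_option maxHeartbeats 1000000

noncomputable section

namespace Fermat.Agent.S36.GRE

open Fermat.Agent
open Fermat.Agent.S24 (Qbar FF)
open Fermat.Agent.INJ (RedData)
open Fermat.Agent.INJ.Inst (kA IsGauss)
open Fermat.Agent.S36.Base
open ModularCurve (coeffMap)

/-- **[E4]** -/
theorem oaInst : Stmt_OAInst := by
  intro A N _ L D hG x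
  have h1 : x ∈ Val.OA A N ↔ Val.GInt A (Val.phiA A N x) := Iff.rfl
  rw [h1]
  constructor
  · rintro ⟨f, g, hg, he⟩
    exact (hG.ratio (emb A N x) f g hg he).1
  · intro hx
    obtain ⟨f, g, hg, he⟩ := hG.exists_ratio (emb A N x) hx
    exact ⟨f, g, hg, he⟩

end Fermat.Agent.S36.GRE

end

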