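import Fermat.Agent.S36.GRE.Abs

/-!
# S36 / GRE / [A1] : apply a `K₀`-linear functional to a `K`-linear relation over `ι F₀`
(helper50, task 1009)
-/

set_option autoImplicit false

namespace Fermat.Agent.S36.GRE

open Fermat.Agent.INJ

theorem proj : Stmt_Proj := by
  intro K₀ K F₀ F G _ _ _ _ _ _ _ _ _ X l ι' s a w hrel
  classical
  set V : Submodule K₀ K := Submodule.span K₀ (a '' (s : Set ι')) with hV
  have hfd : FiniteDimensional K₀ V :=
    FiniteDimensional.span_of_finite K₀ ((s.finite_toSet).image a)
  let b := Module.finBasis K₀ V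
  set m := Module.finrank K₀ V with hm
  let c : Fin m → K := fun j => (b j : K)
  have hli : LinearIndependent K₀ c :=
    b.linearIndependent.map' V.subtype (Submodule.ker_subtype V)
  have hmem : ∀ i : s, a i ∈ V := fun i => Submodule.subset_span ⟨i, i.2, rfl⟩
  let R : s → Fin m → K₀ := fun i j => b.repr ⟨a i, hmem i⟩ j
  have ha : ∀ i : s, a i = ∑ j, algebraMap K₀ K (R i j) * c j := by
    intro i
    have h1 := b.sum_repr ⟨a i, hmem i⟩
    have h2 := congrArg (fun z : V => (z : K)) h1
    simp only [Submodule.coe_sum, Submodule.coe_smul] at h2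
    rw [← h2]
    refine Finset.sum_congr rfl fun j _ => ?_
    rw [Algebra.smul_def]
  let z : Fin m → F₀ := fun j => ∑ i : s, algebraMap K₀ F₀ (R i j) * w i
  have hz : ∑ j, algebraMap K F (c j) * X.ι (z j) = 0 := by
    rw [← Finset.sum_coe_sort s] at hrel
    rw [← hrel]
    have h1 : ∀ i : s, algebraMap K F (a i) * X.ι (w i)
        = ∑ j, algebraMap K F (c j) * X.ι (algebraMap K₀ F₀ (R i j) * w i) := by
      intro i
      conv_lhs => rw [ha i]
      rw [map_sum, Finset.sum_mul]
      refine Finset.sum_congr rfl fun j _ => ?_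
      rw [map_mul, map_mul, X.ι_const]
      ring
    simp only [h1]
    rw [Finset.sum_comm]
    refine Finset.sum_congr rfl fun j _ => ?_
    simp only [z]
    rw [map_sum, Finset.mul_sum]
  have hz0 := X.disj m c z hli hz
  rw [← Finset.sum_coe_sort s]
  have h2 : ∀ i : s, algebraMap K₀ F₀ (l (a i)) * w i
      = ∑ j, algebraMap K₀ F₀ (l (c j)) * (algebraMap K₀ F₀ (R i j) * w i) := by
    intro i
    conv_lhs => rw [ha i]
    rw [map_sum, map_sum, Finset.sum_mul]
    refine Finset.sum_congr rfl fun j _ => ?_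
    have h3 : l (algebraMap K₀ K (R i j) * c j) = R i j * l (c j) := by
      rw [← Algebra.smul_def, map_smul, smul_eq_mul]
    rw [h3, map_mul]
    ring
  simp only [h2]
  rw [Finset.sum_comm]
  refine Finset.sum_eq_zero fun j _ => ?_
  rw [← Finset.mul_sum]
  have := hz0 j
  simp only [z] at this
  rw [this, mul_zero]

end Fermat.Agent.S36.GRE
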