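import Fermat.Agent.S36.GRE.Abs
import Fermat.Agent.INJ.P1
import Fermat.Agent.INJ.P2
import Fermat.Agent.INJ.P3
import Fermat.Agent.INJ.P4

/-!
# S36 / GRE / C4 : the special fibre of the chart is integral and normal (`Stmt_QuotNormal`)
-/

set_option autoImplicit false

namespace Fermat.Agent.S36.GRE

open Polynomial IntermediateField
open Fermat.Agent.INJ
open Fermat.Agent.KL (PolyR cst)
open scoped IntermediateField.algebraAdjoinAdjoin

section

variable {K₀ F₀ k Fb : Type} [Field K₀] [Field F₀] [Algebra K₀ F₀] [Field k] [Field Fb]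
  [Algebra k Fb]

/-- an element of `K₀` outside `A` has inverse in `A` with reduction `0`. -/
theorem QuotNormal_inv_A (D₀ : RedData K₀ F₀ k Fb) {a : K₀} (ha : a ∉ D₀.A) :
    a⁻¹ ∈ D₀.A ∧ D₀.ra a⁻¹ = 0 := by
  have h1 : algebraMap K₀ F₀ a ∉ D₀.O := fun h => ha ((D₀.mem_iff a).1 h)
  obtain ⟨h2, h3⟩ := RedData.inv_mem_of_not_mem h1
  rw [← map_inv₀] at h2 h3
  have h4 : a⁻¹ ∈ D₀.A := (D₀.mem_iff _).1 h2
  refine ⟨h4, ?_⟩
  rw [RedData.rd_algebraMap h4] at h3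
  exact (map_eq_zero (algebraMap k Fb)).1 h3

/-- an element of `O` with reduction `0` is divisible by the uniformiser. -/
theorem QuotNormal_div (D₀ : RedData K₀ F₀ k Fb) {ϖ : K₀} (hd : IsDisc D₀ ϖ) {b : F₀}
    (hb : b ∈ D₀.O) (h0 : D₀.rd b = 0) : b * algebraMap K₀ F₀ ϖ⁻¹ ∈ D₀.O := by
  by_cases hb0 : b = 0
  · rw [hb0, zero_mul]
    exact D₀.O.zero_mem
  obtain ⟨a, ha0, h1, h2⟩ := D₀.unram b hb0
  have h3 : D₀.rd (b * algebraMap K₀ F₀ a) ≠ 0 :=
    RedData.rd_ne_zero_of_inv_mem (mul_ne_zero hb0 ((_root_.map_ne_zero _).2 ha0)) h1 h2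
  have haA : a ∉ D₀.A := by
    intro ha
    apply h3
    rw [RedData.rd_mul hb (RedData.algebraMap_mem ha), h0, zero_mul]
  obtain ⟨h4, h5⟩ := QuotNormal_inv_A D₀ haA
  have h6 := hd.gen _ h4 h5
  have e : b * algebraMap K₀ F₀ ϖ⁻¹ =
      (b * algebraMap K₀ F₀ a) * algebraMap K₀ F₀ (a⁻¹ * ϖ⁻¹) := by
    rw [map_mul, map_inv₀, map_inv₀]
    have : algebraMap K₀ F₀ a ≠ 0 := (_root_.map_ne_zero _).2 ha0
    field_simp
  rw [e]
  exact mul_mem h1 (RedData.algebraMap_mem h6)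

theorem QuotNormal_isInt_const (t : F₀) (c : K₀) : IsInt K₀ t (algebraMap K₀ F₀ c) := by
  have : algebraMap K₀ F₀ c = algebraMap (Algebra.adjoin K₀ {t}) F₀
      (algebraMap K₀ (Algebra.adjoin K₀ {t}) c) := rfl
  unfold IsInt
  rw [this]
  exact isIntegral_algebraMap

/-- the integral closure of `k[tb]` in `Fb` is integrally closed. -/
theorem QuotNormal_closed (tb : Fb) [FiniteDimensional k⟮tb⟯ Fb] :
    IsIntegrallyClosed (integralClosure (Algebra.adjoin k {tb}) Fb) :=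
  integralClosure.isIntegrallyClosedOfFiniteExtension k⟮tb⟯

end

/-- **[C4]** -/
theorem quotNormal (h2 : Stmt_IntOverA) : Stmt_QuotNormal := by
  intro A₀ K₀ F₀ k Fb _ _ _ _ _ _ _ _ _ _ _ D₀ t ϖ hA hC hd hN
  have hB : ∀ x : F₀, IsIntegral (PolyR A₀ t) x ↔ x ∈ D₀.O ∧ IsInt K₀ t x :=
    h2 A₀ K₀ F₀ k Fb D₀ t hA hC
  have hO : ∀ b : KL.Chart A₀ t, (b : F₀) ∈ D₀.O := fun b => ((hB b).1 b.2).1
  have hI : ∀ b : KL.Chart A₀ t, IsInt K₀ t (b : F₀) := fun b => ((hB b).1 b.2).2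
  have hIR : Stmt_IntRed := stmt_IntRed stmt_Gauss (stmt_Ortho stmt_Gauss)
  have hTr : Stmt_Trace := stmt_Trace stmt_Gauss (stmt_Ortho stmt_Gauss)
  -- the reduction homomorphism
  let ρ : KL.Chart A₀ t →+* integralClosure (Algebra.adjoin k {D₀.rd t}) Fb :=
    { toFun := fun b => ⟨D₀.rd (b : F₀), hIR K₀ F₀ k Fb D₀ t hC b (hO b) (hI b)⟩
      map_one' := Subtype.ext RedData.rd_one
      map_zero' := Subtype.ext RedData.rd_zero
      map_mul' := fun a b => Subtype.ext (RedData.rd_mul (hO a) (hO b))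
      map_add' := fun a b => Subtype.ext (RedData.rd_add (hO a) (hO b)) }
  have hρ : ∀ b : KL.Chart A₀ t, ((ρ b : integralClosure (Algebra.adjoin k {D₀.rd t}) Fb) : Fb)
      = D₀.rd (b : F₀) := fun _ => rfl
  have hsurj : Function.Surjective ρ := by
    rintro ⟨yb, hyb⟩
    obtain ⟨y, hy1, hy2, hy3⟩ := hN yb hyb
    exact ⟨⟨y, (hB y).2 ⟨hy1, hy2⟩⟩, Subtype.ext hy3⟩
  have hcst : ((cst A₀ t ϖ : KL.Chart A₀ t) : F₀) = algebraMap K₀ F₀ (algebraMap A₀ K₀ ϖ) :=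
    IsScalarTower.algebraMap_apply A₀ K₀ F₀ ϖ
  have hϖ0 : algebraMap K₀ F₀ (algebraMap A₀ K₀ ϖ) ≠ 0 := (_root_.map_ne_zero _).2 hd.ne
  have hmem : ∀ b : KL.Chart A₀ t, b ∈ Ideal.span {cst A₀ t ϖ} ↔ D₀.rd (b : F₀) = 0 := by
    intro b
    rw [Ideal.mem_span_singleton]
    constructor
    · rintro ⟨c, rfl⟩
      have e : (((cst A₀ t ϖ : KL.Chart A₀ t) * c : KL.Chart A₀ t) : F₀) =
          algebraMap K₀ F₀ (algebraMap A₀ K₀ ϖ) * (c : F₀) := by
        rw [← hcst]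
        rfl
      rw [e, RedData.rd_mul (RedData.algebraMap_mem hd.mem) (hO c), RedData.rd_algebraMap hd.mem,
        hd.ra, map_zero, zero_mul]
    · intro h0
      have h1 := QuotNormal_div D₀ hd (hO b) h0
      have h3 : IsInt K₀ t ((b : F₀) * algebraMap K₀ F₀ (algebraMap A₀ K₀ ϖ)⁻¹) :=
        IsIntegral.mul (hI b) (QuotNormal_isInt_const t _)
      refine ⟨⟨_, (hB _).2 ⟨h1, h3⟩⟩, Subtype.ext ?_⟩
      show (b : F₀) = ((cst A₀ t ϖ : KL.Chart A₀ t) : F₀) *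
        ((b : F₀) * algebraMap K₀ F₀ (algebraMap A₀ K₀ ϖ)⁻¹)
      rw [hcst, map_inv₀]
      field_simp
  have hker : Ideal.span {cst A₀ t ϖ} = RingHom.ker ρ := by
    ext b
    rw [hmem, RingHom.mem_ker]
    constructor
    · intro h
      exact Subtype.ext h
    · intro h
      exact congrArg Subtype.val h
  refine ⟨hmem, ?_, ?_⟩
  · rw [hker]
    exact RingHom.ker_isPrime ρ
  · have hfin := hC.fin
    have hnpos : 0 < Module.finrank K₀⟮t⟯ F₀ := Module.finrank_pos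
    have hrank : Module.finrank k⟮D₀.rd t⟯ Fb = Module.finrank K₀⟮t⟯ F₀ :=
      (hTr K₀ F₀ k Fb D₀ t hC).1
    have hfinb : FiniteDimensional k⟮D₀.rd t⟯ Fb :=
      Module.finite_of_finrank_pos (by rw [hrank]; exact hnpos)
    have hcl := QuotNormal_closed (k := k) (D₀.rd t)
    exact IsIntegrallyClosed.of_equiv
      ((Ideal.quotEquivOfEq hker).trans (RingHom.quotientKerEquivOfSurjective hsurj)).symm

end Fermat.Agent.S36.GRE
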