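import Fermat.Agent.S36.GRE.Abs

/-!
# S36 / GRE, package B1 : the residue field of `O ∩ F₀` is all of `Fb` (Galois + separability)
-/

set_option autoImplicit false

namespace Fermat.Agent.S36.GRE

open Polynomial IntermediateField
open Fermat.Agent.INJ

section ResSurj

variable {K₀ K F₀ F G k Fb : Type} [Field K₀] [Field K] [Field F₀] [Field F] [Algebra K₀ K]
  [Algebra K₀ F₀] [Algebra K F] [Group G] [MulSemiringAction G K] [Field k] [Field Fb]
  [Algebra k Fb]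

/-- the residue field of `O ∩ F₀`, as an intermediate field of `Fb / k`. -/
def ResSurj_L (Bc : BC K₀ K F₀ F G) (D : RedData K F k Fb) (hR : ResOnto K₀ D) :
    IntermediateField k Fb where
  carrier := {yb | ∃ z : F₀, Bc.ι z ∈ D.O ∧ D.rd (Bc.ι z) = yb}
  mul_mem' := by
    rintro _ _ ⟨z, hz, rfl⟩ ⟨w, hw, rfl⟩
    exact ⟨z * w, by rw [map_mul]; exact mul_mem hz hw, by rw [map_mul, RedData.rd_mul hz hw]⟩
  one_mem' := ⟨1, by rw [map_one]; exact D.O.one_mem, by rw [map_one, RedData.rd_one]⟩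
  add_mem' := by
    rintro _ _ ⟨z, hz, rfl⟩ ⟨w, hw, rfl⟩
    exact ⟨z + w, by rw [map_add]; exact add_mem hz hw, by rw [map_add, RedData.rd_add hz hw]⟩
  zero_mem' := ⟨0, by rw [map_zero]; exact D.O.zero_mem, by rw [map_zero, RedData.rd_zero]⟩
  algebraMap_mem' := by
    intro c
    obtain ⟨a, ha, rfl⟩ := RedData.exists_ra_eq (D := D) c
    obtain ⟨b, hb, hba⟩ := hR a ha
    exact ⟨algebraMap K₀ F₀ b, by rw [Bc.ι_const]; exact RedData.algebraMap_mem hb,
      by rw [Bc.ι_const, RedData.rd_algebraMap hb, hba]⟩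
  inv_mem' := by
    rintro _ ⟨z, hz, rfl⟩
    by_cases h0 : D.rd (Bc.ι z) = 0
    · exact ⟨0, by rw [map_zero]; exact D.O.zero_mem, by rw [map_zero, RedData.rd_zero, h0, inv_zero]⟩
    · exact ⟨z⁻¹, by rw [map_inv₀]; exact RedData.inv_mem_of_rd_ne_zero h0,
        by rw [map_inv₀, RedData.rd_inv h0]⟩

theorem ResSurj_mem_L {Bc : BC K₀ K F₀ F G} {D : RedData K F k Fb} {hR : ResOnto K₀ D} {yb : Fb} :
    yb ∈ ResSurj_L Bc D hR ↔ ∃ z : F₀, Bc.ι z ∈ D.O ∧ D.rd (Bc.ι z) = yb := Iff.rfl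

/-- the coefficients of `(X - yb) ^ s`, `s` the size of the orbit of a lift of `yb`, are in `L₀`. -/
theorem ResSurj_coeff (Bc : BC K₀ K F₀ F G) (D : RedData K F k Fb) (hR : ResOnto K₀ D)
    (hG : GalRed Bc D) (yb : Fb) :
    ∃ s : ℕ, s ≠ 0 ∧ ∀ i, ((X - C yb) ^ s : Fb[X]).coeff i ∈ ResSurj_L Bc D hR := by
  classical
  obtain ⟨y, hy, rfl⟩ := RedData.exists_rd_eq (D := D) yb
  set S : Finset F := (Bc.orbit y).toFinset with hS
  have hmemS : ∀ y' : F, y' ∈ S ↔ ∃ σ : G, Bc.g σ y = y' := by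
    intro y'
    rw [hS, Set.Finite.mem_toFinset]
    rfl
  have hyS : y ∈ S := (hmemS y).2 ⟨1, Bc.g_one y⟩
  have hSO : ∀ y' ∈ S, y' ∈ D.O ∧ D.rd y' = D.rd y := by
    intro y' hy'
    obtain ⟨σ, rfl⟩ := (hmemS y').1 hy'
    exact hG σ y hy
  refine ⟨S.card, Finset.card_ne_zero_of_mem hyS, fun i => ?_⟩
  -- the polynomial over `F`
  set P : F[X] := ∏ y' ∈ S, (X - C y') with hP
  -- the polynomial over `O`
  set PO : (D.O)[X] := ∏ y' ∈ S.attach, (X - C (⟨y'.1, (hSO y'.1 y'.2).1⟩ : D.O)) with hPO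
  have hPO1 : PO.map D.O.subtype = P := by
    rw [hPO, hP, Polynomial.map_prod, ← Finset.prod_attach S]
    refine Finset.prod_congr rfl fun y' _ => ?_
    rw [Polynomial.map_sub, map_X, map_C]
    rfl
  have hPO2 : PO.map D.rO = (X - C (D.rd y)) ^ S.card := by
    rw [hPO, Polynomial.map_prod, ← Finset.card_attach, ← Finset.prod_const]
    refine Finset.prod_congr rfl fun y' _ => ?_
    have h2 : D.rO ⟨y'.1, (hSO y'.1 y'.2).1⟩ = D.rd y := by
      rw [← RedData.rd_of_mem (hSO y'.1 y'.2).1]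
      exact (hSO y'.1 y'.2).2
    rw [Polynomial.map_sub, map_X, map_C, h2]
  -- invariance
  have hinv : ∀ σ : G, P.map (Bc.g σ) = P := by
    intro σ
    have himg : S.image (Bc.g σ) = S := by
      apply Finset.eq_of_subset_of_card_le
      · intro y'' hy''
        obtain ⟨y', hy', rfl⟩ := Finset.mem_image.1 hy''
        obtain ⟨τ, rfl⟩ := (hmemS y').1 hy'
        exact (hmemS _).2 ⟨σ * τ, Bc.g_mul σ τ y⟩
      · rw [Finset.card_image_of_injective _ (Bc.g σ).injective]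
    rw [hP, Polynomial.map_prod]
    conv_rhs => rw [← himg, Finset.prod_image fun a _ b _ h => (Bc.g σ).injective h]
    refine Finset.prod_congr rfl fun y' _ => ?_
    rw [Polynomial.map_sub, map_X, map_C]
  obtain ⟨a, ha⟩ := Bc.fixF (P.coeff i) (fun σ => by rw [← coeff_map, hinv σ])
  have h1 : P.coeff i = ((PO.coeff i : D.O) : F) := by
    rw [← hPO1, coeff_map]
    rfl
  refine ⟨a, by rw [ha, h1]; exact (PO.coeff i).2, ?_⟩
  rw [ha, h1, RedData.rd_of_mem (PO.coeff i).2, ← hPO2, coeff_map]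

theorem resSurj : Stmt_ResSurj := by
  intro K₀ K F₀ F G k Fb _ _ _ _ _ _ _ _ _ _ _ _ Bc D t hG hR ht hsep yb
  set L₀ := ResSurj_L Bc D hR with hL₀
  rw [← ResSurj_mem_L (hR := hR)]
  have hle : k⟮D.rd (Bc.ι t)⟯ ≤ L₀ := by
    rw [adjoin_simple_le_iff]
    exact ⟨t, ht, rfl⟩
  let _ : Algebra k⟮D.rd (Bc.ι t)⟯ L₀ := (IntermediateField.inclusion hle).toRingHom.toAlgebra
  have : IsScalarTower k⟮D.rd (Bc.ι t)⟯ L₀ Fb := IsScalarTower.of_algebraMap_eq (fun _ => rfl)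
  have hs : IsSeparable L₀ yb :=
    (Algebra.IsSeparable.isSeparable k⟮D.rd (Bc.ι t)⟯ yb).tower_top L₀
  have hint : IsIntegral L₀ yb := hs.isIntegral
  obtain ⟨s, hs0, hcoeff⟩ := ResSurj_coeff Bc D hR hG yb
  have hlift : ((X - C yb) ^ s : Fb[X]) ∈ lifts (algebraMap L₀ Fb) := by
    rw [lifts_iff_coeff_lifts]
    intro n
    exact ⟨⟨_, hcoeff n⟩, rfl⟩
  obtain ⟨Q₀, hQ₀⟩ := (mem_lifts _).1 hlift
  have hroot : aeval yb Q₀ = 0 := by
    rw [aeval_def, ← eval_map, hQ₀]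
    simp [hs0]
  have hdvd : (minpoly L₀ yb).map (algebraMap L₀ Fb) ∣ (X - C yb) ^ s := by
    rw [← hQ₀]
    exact Polynomial.map_dvd _ (minpoly.dvd L₀ yb hroot)
  have hsq : Squarefree ((minpoly L₀ yb).map (algebraMap L₀ Fb)) :=
    (Polynomial.Separable.map hs).squarefree
  have hdvd1 : (minpoly L₀ yb).map (algebraMap L₀ Fb) ∣ X - C yb :=
    (hsq.dvd_pow_iff_dvd hs0).1 hdvd
  have hdeg : (minpoly L₀ yb).natDegree ≤ 1 := by
    have := natDegree_le_of_dvd hdvd1 (X_sub_C_ne_zero yb)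
    rwa [natDegree_map, natDegree_X_sub_C] at this
  have hdeg' : (minpoly L₀ yb).degree = 1 := by
    have hpos := minpoly.natDegree_pos hint
    rw [degree_eq_natDegree (minpoly.ne_zero hint)]
    have : (minpoly L₀ yb).natDegree = 1 := by omega
    rw [this]
    rfl
  obtain ⟨w, hw⟩ := minpoly.mem_range_of_degree_eq_one L₀ yb hdeg'
  rw [← hw]
  exact w.2

end ResSurj

end Fermat.Agent.S36.GRE
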