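import Fermat.Agent.S36.GRE.Abs

/-!
# S36 / GRE / B2 : the restricted reduction datum
-/

set_option autoImplicit false

namespace Fermat.Agent.S36.GRE

open Fermat.Agent.INJ

section Construction

variable {K₀ K F₀ F G k Fb : Type} [Field K₀] [Field K] [Field F₀] [Field F] [Algebra K₀ K]
  [Algebra K₀ F₀] [Algebra K F] [Group G] [MulSemiringAction G K] [Field k] [Field Fb] [Algebra k Fb]

/-- the inclusion `A ∩ K₀ → A`. -/
def Restrict_jA (D : RedData K F k Fb) : ↥(D.A.comap (algebraMap K₀ K)) →+* D.A where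
  toFun x := ⟨algebraMap K₀ K x.1, x.2⟩
  map_one' := Subtype.ext (map_one _)
  map_mul' x y := Subtype.ext (map_mul _ x.1 y.1)
  map_zero' := Subtype.ext (map_zero _)
  map_add' x y := Subtype.ext (map_add _ x.1 y.1)

/-- the inclusion `O ∩ F₀ → O`. -/
def Restrict_jO (X : BC K₀ K F₀ F G) (D : RedData K F k Fb) : ↥(D.O.comap X.ι) →+* D.O where
  toFun x := ⟨X.ι x.1, x.2⟩
  map_one' := Subtype.ext (map_one _)
  map_mul' x y := Subtype.ext (map_mul _ x.1 y.1)
  map_zero' := Subtype.ext (map_zero _)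
  map_add' x y := Subtype.ext (map_add _ x.1 y.1)

/-- the restricted reduction datum. -/
def Restrict_D (X : BC K₀ K F₀ F G) (D : RedData K F k Fb) (h1 : ResOnto K₀ D)
    (h2 : UnramOver X D) (h3 : ∀ yb : Fb, ∃ z : F₀, X.ι z ∈ D.O ∧ D.rd (X.ι z) = yb) :
    RedData K₀ F₀ k Fb where
  A := D.A.comap (algebraMap K₀ K)
  O := D.O.comap X.ι
  rA := D.rA.comp (Restrict_jA D)
  rO := D.rO.comp (Restrict_jO X D)
  rA_surj := fun c => by
    obtain ⟨a, ha⟩ := D.rA_surj c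
    obtain ⟨b, hb, hb'⟩ := h1 a.1 a.2
    refine ⟨⟨b, hb⟩, ?_⟩
    rw [RedData.ra_of_mem hb, RedData.ra_of_mem a.2] at hb'
    rw [← ha]
    exact hb'
  rO_surj := fun y => by
    obtain ⟨z, hz, hz'⟩ := h3 y
    refine ⟨⟨z, hz⟩, ?_⟩
    rw [RedData.rd_of_mem hz] at hz'
    exact hz'
  mem_iff := fun a => by
    show X.ι (algebraMap K₀ F₀ a) ∈ D.O ↔ algebraMap K₀ K a ∈ D.A
    rw [X.ι_const]; exact D.mem_iff _
  compat := fun a ha h => by
    have ha' : algebraMap K₀ K a ∈ D.A := ha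
    have h' : algebraMap K F (algebraMap K₀ K a) ∈ D.O := (D.mem_iff _).2 ha'
    have e := D.compat (algebraMap K₀ K a) ha' h'
    show D.rO ⟨X.ι (algebraMap K₀ F₀ a), h⟩ = algebraMap k Fb (D.rA ⟨algebraMap K₀ K a, ha⟩)
    rw [← e]
    exact congrArg D.rO (Subtype.ext (X.ι_const a))
  unram := fun x hx => by
    obtain ⟨a, ha, u1, u2⟩ := h2 x hx
    refine ⟨a, ha, ?_, ?_⟩
    · show X.ι (x * algebraMap K₀ F₀ a) ∈ D.O
      rw [map_mul, X.ι_const]; exact u1
    · show X.ι (x * algebraMap K₀ F₀ a)⁻¹ ∈ D.O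
      rw [map_inv₀, map_mul, X.ι_const]; exact u2

end Construction

theorem restrict : Stmt_Restrict := by
  intro K₀ K F₀ F G k Fb _ _ _ _ _ _ _ _ _ _ _ _ X D h1 h2 h3
  refine ⟨Restrict_D X D h1 h2 h3, ⟨fun _ => Iff.rfl, fun _ => Iff.rfl, fun a => ?_, fun x => ?_⟩⟩
  · by_cases h : algebraMap K₀ K a ∈ D.A
    · have h' : a ∈ (Restrict_D X D h1 h2 h3).A := h
      rw [RedData.ra_of_mem h, RedData.ra_of_mem h']
      rfl
    · have h' : a ∉ (Restrict_D X D h1 h2 h3).A := h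
      unfold RedData.ra
      rw [dif_neg h, dif_neg h']
  · by_cases h : X.ι x ∈ D.O
    · have h' : x ∈ (Restrict_D X D h1 h2 h3).O := h
      rw [RedData.rd_of_mem h, RedData.rd_of_mem h']
      rfl
    · have h' : x ∉ (Restrict_D X D h1 h2 h3).O := h
      rw [RedData.rd_of_not_mem h, RedData.rd_of_not_mem h']

end Fermat.Agent.S36.GRE
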