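import Fermat.Agent.S36.GRE.Abs
import Fermat.Agent.INJ.P1
import Fermat.Agent.INJ.P2

/-!
# S36 / GRE, package C3 (helper2): the Gauss valuation ring is the only vertical valuation ring.
-/

set_option autoImplicit false

namespace Fermat.Agent.S36.GRE

open Polynomial IntermediateField
open Fermat.Agent.INJ
open Fermat.Agent.KL (PolyR cst)

section

variable {A₀ K₀ F₀ k Fb : Type} [CommRing A₀] [Field K₀] [Field F₀] [Algebra A₀ K₀]
  [Algebra K₀ F₀] [Algebra A₀ F₀] [IsScalarTower A₀ K₀ F₀] [Field k] [Field Fb] [Algebra k Fb]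

omit [Field K₀] [Algebra A₀ K₀] [Algebra K₀ F₀] [IsScalarTower A₀ K₀ F₀] in
/-- `A₀[t] ⊆ O'`. -/
theorem UniqAbs_polyR_le {t : F₀} {O' : ValuationSubring F₀}
    (hO'A : ∀ a : A₀, algebraMap A₀ F₀ a ∈ O') (ht : t ∈ O') {y : F₀} (hy : y ∈ PolyR A₀ t) :
    y ∈ O' := by
  induction hy using Algebra.adjoin_induction with
  | mem y hy => rw [Set.mem_singleton_iff] at hy; subst hy; exact ht
  | algebraMap a => exact hO'A a
  | add y z _ _ hy hz => exact add_mem hy hz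
  | mul y z _ _ hy hz => exact mul_mem hy hz

omit [Field K₀] [Algebra A₀ K₀] [Algebra K₀ F₀] [IsScalarTower A₀ K₀ F₀] in
/-- `O'` is integrally closed. -/
theorem UniqAbs_mem_of_isIntegral {t : F₀} {O' : ValuationSubring F₀}
    (hO'A : ∀ a : A₀, algebraMap A₀ F₀ a ∈ O') (ht : t ∈ O') {x : F₀}
    (hx : IsIntegral (PolyR A₀ t) x) : x ∈ O' := by
  obtain ⟨p, hp, hpx⟩ := hx
  let φ : PolyR A₀ t →+* O' :=
    { toFun := fun y => ⟨y.1, UniqAbs_polyR_le hO'A ht y.2⟩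
      map_one' := rfl
      map_mul' := fun _ _ => rfl
      map_zero' := rfl
      map_add' := fun _ _ => rfl }
  have h1 : IsIntegral O' x := by
    refine ⟨p.map φ, hp.map φ, ?_⟩
    rw [Polynomial.eval₂_map]
    exact hpx
  obtain ⟨y, rfl⟩ := IsIntegrallyClosed.isIntegral_iff.1 h1
  exact y.2

omit [Algebra A₀ F₀] [IsScalarTower A₀ K₀ F₀] in
/-- lifting polynomials from `D₀.A` to `A₀`. -/
theorem UniqAbs_lift (D₀ : RedData K₀ F₀ k Fb)
    (hA : ∀ a : K₀, a ∈ D₀.A ↔ a ∈ (algebraMap A₀ K₀).range) (R : (D₀.A)[X]) :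
    ∃ p : A₀[X], p.map (algebraMap A₀ K₀) = R.map D₀.A.subtype := by
  rw [← Polynomial.mem_lifts, Polynomial.lifts_iff_coeff_lifts]
  intro n
  rw [Polynomial.coeff_map]
  exact (hA _).1 (R.coeff n).2

omit [CommRing A₀] [Algebra A₀ K₀] [Algebra A₀ F₀] [IsScalarTower A₀ K₀ F₀] in
/-- an element of `O` with reduction `0` is divisible by `ϖ`. -/
theorem UniqAbs_div (D₀ : RedData K₀ F₀ k Fb) {ϖ : K₀} (hd : IsDisc D₀ ϖ) {y : F₀}
    (hy : y ∈ D₀.O) (hy0 : D₀.rd y = 0) : y * (algebraMap K₀ F₀ ϖ)⁻¹ ∈ D₀.O := by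
  rcases eq_or_ne y 0 with rfl | hne
  · rw [zero_mul]; exact zero_mem _
  obtain ⟨a, ha, h1, h2⟩ := D₀.unram y hne
  have ha' : algebraMap K₀ F₀ a ≠ 0 := (_root_.map_ne_zero _).2 ha
  have e1 : algebraMap K₀ F₀ a⁻¹ = y * (y * algebraMap K₀ F₀ a)⁻¹ := by
    rw [map_inv₀]; field_simp
  have h3 : algebraMap K₀ F₀ a⁻¹ ∈ D₀.O := by rw [e1]; exact mul_mem hy h2
  have h4 : a⁻¹ ∈ D₀.A := (D₀.mem_iff _).1 h3
  have h5 : D₀.ra a⁻¹ = 0 := by
    have h6 : D₀.rd (algebraMap K₀ F₀ a⁻¹) = 0 := by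
      rw [e1, RedData.rd_mul hy h2, hy0, zero_mul]
    rw [RedData.rd_algebraMap h4] at h6
    exact (_root_.map_eq_zero _).1 h6
  have h7 := RedData.algebraMap_mem (F := F₀) (D := D₀) (hd.gen _ h4 h5)
  have e2 : y * (algebraMap K₀ F₀ ϖ)⁻¹ = y * algebraMap K₀ F₀ a * algebraMap K₀ F₀ (a⁻¹ * ϖ⁻¹) := by
    rw [map_mul, map_inv₀, map_inv₀]; field_simp
  rw [e2]
  exact mul_mem h1 h7

end

theorem uniqAbs (h0 : Stmt_BBasis0) (h2 : Stmt_IntOverA) : Stmt_UniqAbs := by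
  intro A₀ K₀ F₀ k Fb _ _ _ _ _ _ _ _ _ _ _ D₀ t ϖ hA hC hd O' hO'A ht hϖ hG
  obtain ⟨e, he, hli, -⟩ := h0 K₀ F₀ k Fb D₀ t hC
  obtain ⟨hG1, hG2, hG3, -, -⟩ := stmt_Gauss K₀ F₀ k Fb D₀ t hC.t_mem hC.trans
  obtain ⟨hO1, hO2⟩ := stmt_Ortho stmt_Gauss K₀ F₀ k Fb D₀ t hC.t_mem hC.trans _ e
    (fun i => (he i).1) hli
  have hfin : FiniteDimensional K₀⟮t⟯ F₀ := hC.fin
  -- (a)
  have ha : ∀ i, e i ∈ O' := fun i =>
    UniqAbs_mem_of_isIntegral hO'A ht ((h2 A₀ K₀ F₀ k Fb D₀ t hA hC (e i)).2 (he i))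
  -- the key lemma on `K₀(t)`
  have key : ∀ c : K₀⟮t⟯, (c : F₀) ∈ D₀.O → (c : F₀) ∈ O' := by
    intro c hc
    obtain ⟨P, Q, hPQ⟩ := (IntermediateField.mem_adjoin_simple_iff K₀ _).1 c.2
    rcases eq_or_ne (aeval t Q) 0 with hQ0 | hQ0
    · rw [hPQ, hQ0, div_zero]; exact zero_mem _
    have hQ : Q ≠ 0 := by rintro rfl; exact hQ0 (map_zero _)
    obtain ⟨a, Q₁, ha0, hQ₁, hQ₁r⟩ := hG3 Q hQ
    obtain ⟨hm1, hr1⟩ := hG1 Q₁
    have ha' : algebraMap K₀ F₀ a ≠ 0 := (_root_.map_ne_zero _).2 ha0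
    have hQe : aeval t Q = algebraMap K₀ F₀ a * aeval t (Q₁.map D₀.A.subtype) := by
      rw [hQ₁, map_mul, aeval_C]
    have hQ₁0 : aeval t (Q₁.map D₀.A.subtype) ≠ 0 := by
      intro h; rw [hQe, h, mul_zero] at hQ0; exact hQ0 rfl
    have e1 : aeval t (C a⁻¹ * P) = (c : F₀) * aeval t (Q₁.map D₀.A.subtype) := by
      rw [hPQ, hQe, map_mul, aeval_C, map_inv₀]; field_simp
    obtain ⟨P₁, hP₁⟩ := hG2 (C a⁻¹ * P) (by rw [e1]; exact mul_mem hc hm1)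
    obtain ⟨p, hp⟩ := UniqAbs_lift D₀ hA P₁
    obtain ⟨q, hq⟩ := UniqAbs_lift D₀ hA Q₁
    have hpe : aeval t p = aeval t (C a⁻¹ * P) := by
      rw [← hP₁, ← hp, aeval_map_algebraMap]
    have hqe : aeval t q = aeval t (Q₁.map D₀.A.subtype) := by
      rw [← hq, aeval_map_algebraMap]
    have hc' : (c : F₀) = aeval t p * (aeval t q)⁻¹ := by
      rw [hpe, hqe, e1]; field_simp
    have hpm : aeval t p ∈ O' := UniqAbs_polyR_le hO'A ht (aeval_mem_adjoin_singleton A₀ t)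
    have hqi : ∃ i, ¬ ϖ ∣ q.coeff i := by
      obtain ⟨i, hi⟩ : ∃ i, (Q₁.map D₀.rA).coeff i ≠ 0 := by
        by_contra hcon
        push Not at hcon
        exact hQ₁r (Polynomial.ext fun i => by rw [hcon i, coeff_zero])
      refine ⟨i, fun ⟨b, hb⟩ => hi ?_⟩
      rw [coeff_map]
      have h3 : ((Q₁.coeff i : D₀.A) : K₀) = algebraMap A₀ K₀ ϖ * algebraMap A₀ K₀ b := by
        have h4 := congrArg (fun R => R.coeff i) hq
        simp only [coeff_map] at h4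
        rw [hb, map_mul] at h4
        exact h4.symm
      have hbm : algebraMap A₀ K₀ b ∈ D₀.A := (hA _).2 ⟨b, rfl⟩
      have h5 : Q₁.coeff i = (⟨_, hd.mem⟩ : D₀.A) * ⟨_, hbm⟩ := Subtype.ext h3
      have h6 : D₀.rA ⟨_, hd.mem⟩ = 0 := by rw [← RedData.ra_of_mem hd.mem]; exact hd.ra
      rw [h5, map_mul, h6, zero_mul]
    have hqv := hG q hqi
    have hqm : (aeval t q)⁻¹ ∈ O' := by
      rw [← ValuationSubring.valuation_le_one_iff, map_inv₀, hqv, inv_one]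
    rw [hc']
    exact mul_mem hpm hqm
  -- (b)
  have hb : D₀.O ≤ O' := by
    intro x hx
    have hspan : Submodule.span K₀⟮t⟯ (Set.range e) = ⊤ :=
      hO1.span_eq_top_of_card_eq_finrank' (Fintype.card_fin _)
    have hxs : x ∈ Submodule.span K₀⟮t⟯ (Set.range e) := by rw [hspan]; trivial
    obtain ⟨c, hc⟩ := (Submodule.mem_span_range_iff_exists_fun _).1 hxs
    have hc' : ∑ i, (c i : F₀) * e i = x := hc
    have h3 := hO2 c (by rw [hc']; exact hx)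
    rw [← hc']
    exact sum_mem fun i _ => mul_mem (key (c i) (h3 i)) (ha i)
  -- (c)
  refine le_antisymm ?_ hb
  intro x hx
  by_contra hxO
  obtain ⟨h3, h4⟩ := RedData.inv_mem_of_not_mem hxO
  have hx0 : x ≠ 0 := by rintro rfl; exact hxO (zero_mem _)
  have h5 := hb (UniqAbs_div D₀ hd h3 h4)
  have h6 : (algebraMap K₀ F₀ (algebraMap A₀ K₀ ϖ))⁻¹ ∈ O' := by
    have e3 : (algebraMap K₀ F₀ (algebraMap A₀ K₀ ϖ))⁻¹ =
        x * (x⁻¹ * (algebraMap K₀ F₀ (algebraMap A₀ K₀ ϖ))⁻¹) := by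
      rw [← mul_assoc, mul_inv_cancel₀ hx0, one_mul]
    rw [e3]
    exact mul_mem hx h5
  rw [← IsScalarTower.algebraMap_apply, ← ValuationSubring.valuation_le_one_iff, map_inv₀] at h6
  have h7 : O'.valuation (algebraMap A₀ F₀ ϖ) ≠ 0 := by
    rw [Valuation.ne_zero_iff, IsScalarTower.algebraMap_apply A₀ K₀ F₀]
    exact (_root_.map_ne_zero _).2 hd.ne
  have h8 : 1 ≤ O'.valuation (algebraMap A₀ F₀ ϖ) := (inv_le_one₀ (zero_lt_iff.2 h7)).1 h6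
  exact absurd hϖ (not_lt.2 h8)

end Fermat.Agent.S36.GRE
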