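import Fermat.Agent.S36.GRE.Interface
import Fermat.Agent.ES.Mid.IntRep

/-!
# S36 / GRE, package E3 : the Gauss valuation of `F_E` is unramified over `A_E` (helper9)
-/

set_option autoImplicit false

noncomputable section

namespace Fermat.Agent.S36.GRE

open Fermat.Agent
open Fermat.Agent.S24 (Qbar FF funAlg)
open Fermat.Agent.S24.QX (qExpHom qExpFun qExpFun_mem)
open Fermat.Agent.INJ (RedData)
open Fermat.Agent.INJ.Inst (kA IsGauss)
open Fermat.Agent.S36.Base
open Fermat.Agent.ES.Mid (INT.FGCoeff INT.fgCoeff_of_mem_serAlg INT.exists_scale INT.lift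
  INT.coeffMap_lift)
open ModularCurve (coeffMap)

/-- normalisation by a constant of `E`. -/
theorem UnramInst_norm (A : ValuationSubring Qbar) (N : ℕ) [NeZero N] (a : FE A N) (ha : a ≠ 0)
    (θ : funAlg N) (h : emb A N a = qExpHom N θ) :
    ∃ (e : IE A) (y : LaurentSeries A), e ≠ 0 ∧
      coeffMap A.subtype y = algebraMap Qbar (LaurentSeries Qbar) (algebraMap (IE A) Qbar e) *
        ((emb A N a : FF N) : LaurentSeries Qbar) ∧
      coeffMap (IsLocalRing.residue A) y ≠ 0 := by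
  set X : LaurentSeries Qbar := ((emb A N a : FF N) : LaurentSeries Qbar) with hX
  have hX0 : X ≠ 0 := by
    intro h0
    apply ha
    apply emb_injective A N
    rw [map_zero]
    exact Subtype.ext h0
  have hfg : INT.FGCoeff X := by
    have e1 : X = qExpFun N θ := by rw [hX, h]; rfl
    rw [e1]
    exact INT.fgCoeff_of_mem_serAlg (qExpFun_mem N θ)
  obtain ⟨l, hl, hA, n, hn⟩ := INT.exists_scale A hX0 hfg
  have hc : X.coeff n = algebraMap (IE A) Qbar ((a : Base.LE A).coeff n) := rfl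
  have hl' : algebraMap (IE A) Qbar ((a : Base.LE A).coeff n)⁻¹ = l := by
    rw [map_inv₀, ← hc]
    exact (eq_inv_of_mul_eq_one_left hn).symm
  set z : LaurentSeries Qbar := algebraMap Qbar (LaurentSeries Qbar) l * X with hz
  have hzc : ∀ k, z.coeff k = l * X.coeff k := fun k => by
    rw [hz, ModularCurve.algebraMap_laurentSeries_eq_single, HahnSeries.coeff_single_zero_mul]
  refine ⟨((a : Base.LE A).coeff n)⁻¹, INT.lift A z (fun k => by rw [hzc]; exact hA k), ?_, ?_, ?_⟩
  · intro h0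
    apply hl
    rw [← hl', h0, map_zero]
  · rw [INT.coeffMap_lift, hl']
  · intro h0
    have h1 := congrArg (fun z => HahnSeries.coeff z n) h0
    simp only [ModularCurve.coeffMap_coeff, HahnSeries.coeff_zero] at h1
    have h2 : (INT.lift A z (fun k => by rw [hzc]; exact hA k)).coeff n = 1 := by
      apply Subtype.ext
      show z.coeff n = 1
      rw [hzc, hn]
    rw [h2, map_one] at h1
    exact one_ne_zero h1

theorem unramInst (hF : Base.Stmt_Frac) : Stmt_UnramInst := by
  intro A N _ L D hG x hx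
  obtain ⟨θ₁, θ₂, a₁, a₂, ha₂, hxa, h1, h2⟩ := hF A N x
  have ha₁ : a₁ ≠ 0 := by rw [← hxa]; exact mul_ne_zero hx ha₂
  obtain ⟨e₁, y₁, he₁, hy₁, hr₁⟩ := UnramInst_norm A N a₁ ha₁ θ₁ h1
  obtain ⟨e₂, y₂, he₂, hy₂, hr₂⟩ := UnramInst_norm A N a₂ ha₂ θ₂ h2
  have hl₂ : algebraMap Qbar (LaurentSeries Qbar) (algebraMap (IE A) Qbar e₂) ≠ 0 := by
    rw [Ne, map_eq_zero, map_eq_zero]
    exact he₂
  set w : FF N := emb A N x * algebraMap Qbar (FF N) (algebraMap (IE A) Qbar (e₁ / e₂)) with hw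
  have hwc : (w : LaurentSeries Qbar) = ((emb A N x : FF N) : LaurentSeries Qbar) *
      (algebraMap Qbar (LaurentSeries Qbar) (algebraMap (IE A) Qbar e₁) /
        algebraMap Qbar (LaurentSeries Qbar) (algebraMap (IE A) Qbar e₂)) := by
    rw [← map_div₀, ← map_div₀]
    rfl
  have hmul : ((emb A N x : FF N) : LaurentSeries Qbar) * ((emb A N a₂ : FF N) : LaurentSeries Qbar)
      = ((emb A N a₁ : FF N) : LaurentSeries Qbar) := by
    rw [← hxa, map_mul]
    rfl
  have key : (w : LaurentSeries Qbar) * coeffMap A.subtype y₂ = coeffMap A.subtype y₁ := by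
    rw [hwc, hy₁, hy₂, ← hmul]
    field_simp
  have hy₁0 : coeffMap A.subtype y₁ ≠ 0 := by
    intro h0
    apply hr₁
    have : y₁ = 0 := INJ.Inst.Gauss.inc_injective A (by rw [h0, map_zero])
    rw [this, map_zero]
  have hw0 : (w : LaurentSeries Qbar) ≠ 0 := by
    intro h0
    rw [h0, zero_mul] at key
    exact hy₁0 key.symm
  refine ⟨e₁ / e₂, div_ne_zero he₁ he₂, (hG.ratio w y₁ y₂ hr₂ key).1, (hG.ratio w⁻¹ y₂ y₁ hr₁ ?_).1⟩
  show (w : LaurentSeries Qbar)⁻¹ * coeffMap A.subtype y₁ = coeffMap A.subtype y₂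
  rw [← key, ← mul_assoc, inv_mul_cancel₀ hw0, one_mul]

end Fermat.Agent.S36.GRE

end
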