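import Fermat.Agent.S36.GRE.Abs

/-!
# S36 / GRE : abstract part, two more consumer forms (architect helper5)

`Stmt_VertAbs` : `D₀.O` is a vertical valuation ring (shape of `Val.IsVert`).
`Stmt_LiftAbs` : the lifting property (shape of `Gre.LiftProp` / helper78's `NorV`).
-/

set_option autoImplicit false

namespace Fermat.Agent.S36.GRE

open Polynomial IntermediateField
open Fermat.Agent.INJ
open Fermat.Agent.KL (PolyR cst)

/-- [C5] the Gauss valuation ring is vertical. -/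
def Stmt_VertAbs : Prop :=
  ∀ (A₀ K₀ F₀ k Fb : Type) [CommRing A₀] [Field K₀] [Field F₀] [Algebra A₀ K₀]
    [Algebra K₀ F₀] [Algebra A₀ F₀] [IsScalarTower A₀ K₀ F₀] [Field k] [Field Fb] [Algebra k Fb]
    (D₀ : RedData K₀ F₀ k Fb) (t : F₀) (ϖ : A₀), Function.Injective (algebraMap A₀ K₀) →
    (∀ a : K₀, a ∈ D₀.A ↔ a ∈ (algebraMap A₀ K₀).range) →
    t ∈ D₀.O → Transcendental k (D₀.rd t) → IsDisc D₀ (algebraMap A₀ K₀ ϖ) →
    (∀ a : A₀, algebraMap A₀ F₀ a ∈ D₀.O) ∧ t ∈ D₀.O ∧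
      D₀.O.valuation (algebraMap A₀ F₀ ϖ) < 1 ∧
      ∀ p : A₀[X], (∃ i, ¬ ϖ ∣ p.coeff i) → D₀.O.valuation (aeval t p) = 1

/-- [C6] the lifting property. -/
def Stmt_LiftAbs : Prop :=
  ∀ (A₀ K₀ F₀ k Fb : Type) [CommRing A₀] [Field K₀] [Field F₀] [Algebra A₀ K₀]
    [Algebra K₀ F₀] [Algebra A₀ F₀] [IsScalarTower A₀ K₀ F₀] [Field k] [Field Fb] [Algebra k Fb]
    (D₀ : RedData K₀ F₀ k Fb) (t : F₀),
    (∀ a : K₀, a ∈ D₀.A ↔ a ∈ (algebraMap A₀ K₀).range) → Chart D₀ t → NormalAt D₀ t →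
    ∀ z ∈ D₀.O, (∃ p : (PolyR A₀ t)[X], p.Monic ∧ D₀.O.valuation (aeval z p) < 1) →
      ∃ y : F₀, IsIntegral (PolyR A₀ t) y ∧ D₀.O.valuation (z - y) < 1

end Fermat.Agent.S36.GRE
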