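/-
TEAM S36, task GRE-C5 (helper26): the Gauss valuation ring `D₀.O` is vertical (`Stmt_VertAbs`).
-/
import Fermat.Agent.S36.GRE.Abs2
import Fermat.Agent.INJ.P1

set_option autoImplicit false

namespace Fermat.Agent.S36.GRE

open Polynomial IntermediateField
open Fermat.Agent.INJ

/-- `rd b = 0 ↔ v(b) < 1` on `O` (copy of `Asm_rd_eq_zero_iff`, light import). -/
theorem VertAbs_rd_eq_zero_iff {K F k Fb : Type} [Field K] [Field F] [Algebra K F] [Field k]
    [Field Fb] [Algebra k Fb] (D : RedData K F k Fb) {b : F} (hb : b ∈ D.O) :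
    D.rd b = 0 ↔ D.O.valuation b < 1 := by
  constructor
  · intro h
    rcases lt_or_eq_of_le ((D.O.valuation_le_one_iff b).2 hb) with h1 | h1
    · exact h1
    · exfalso
      have hu : IsUnit (⟨b, hb⟩ : D.O) := (D.O.valuation_eq_one_iff ⟨b, hb⟩).2 h1
      obtain ⟨u, hu⟩ := hu
      have h2 : D.rO (u : D.O) * D.rO ((u⁻¹ : (D.O)ˣ) : D.O) = 1 := by
        rw [← map_mul, Units.mul_inv, map_one]
      rw [hu, ← RedData.rd_of_mem hb, h, zero_mul] at h2
      exact zero_ne_one h2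
  · intro h
    by_contra h0
    have h1 : b⁻¹ ∈ D.O := RedData.inv_mem_of_rd_ne_zero h0
    have h2 := (D.O.valuation_le_one_iff b⁻¹).2 h1
    have hb0 : b ≠ 0 := by
      rintro rfl
      exact h0 RedData.rd_zero
    have h3 : D.O.valuation b * D.O.valuation b⁻¹ = 1 := by
      rw [← map_mul, mul_inv_cancel₀ hb0, map_one]
    have h4 : D.O.valuation b * D.O.valuation b⁻¹ < 1 := by
      calc D.O.valuation b * D.O.valuation b⁻¹ ≤ D.O.valuation b * 1 := by gcongr
        _ = D.O.valuation b := mul_one _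
        _ < 1 := h
    exact absurd h3 (ne_of_lt h4)

theorem vertAbs : Stmt_VertAbs := by
  intro A₀ K₀ F₀ k Fb _ _ _ _ _ _ _ _ _ _ D₀ t ϖ hinj hA ht htr hd
  have hmemA : ∀ a : A₀, algebraMap A₀ K₀ a ∈ D₀.A := fun a => (hA _).2 ⟨a, rfl⟩
  have hmemO : ∀ a : A₀, algebraMap A₀ F₀ a ∈ D₀.O := by
    intro a
    rw [IsScalarTower.algebraMap_apply A₀ K₀ F₀ a]
    exact RedData.algebraMap_mem (hmemA a)
  refine ⟨hmemO, ht, ?_, ?_⟩
  · rw [← VertAbs_rd_eq_zero_iff D₀ (hmemO ϖ), IsScalarTower.algebraMap_apply A₀ K₀ F₀ ϖ,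
      RedData.rd_algebraMap (hmemA ϖ), hd.ra, map_zero]
  · rintro p ⟨i, hi⟩
    -- the ring hom `A₀ → D₀.A`
    let ι : A₀ →+* D₀.A := (algebraMap A₀ K₀).codRestrict D₀.A.toSubring hmemA
    have hι : D₀.A.subtype.comp ι = algebraMap A₀ K₀ := RingHom.ext fun a => rfl
    let Q : (D₀.A)[X] := p.map ι
    have hQ : aeval t (Q.map D₀.A.subtype) = aeval t p := by
      rw [Polynomial.map_map, hι, Polynomial.aeval_map_algebraMap]
    obtain ⟨hG1, hG2⟩ := (stmt_Gauss K₀ F₀ k Fb D₀ t ht htr).1 Q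
    rw [hQ] at hG1 hG2
    have hne : Q.map D₀.rA ≠ 0 := by
      intro h0
      have hc : D₀.rA (ι (p.coeff i)) = 0 := by
        have := congrArg (fun f => Polynomial.coeff f i) h0
        simpa [Q, Polynomial.coeff_map] using this
      have hra : D₀.ra (algebraMap A₀ K₀ (p.coeff i)) = 0 := by
        rw [RedData.ra_of_mem (hmemA _)]
        exact hc
      obtain ⟨c', hc'⟩ := (hA _).1 (hd.gen _ (hmemA _) hra)
      apply hi
      refine ⟨c', hinj ?_⟩
      rw [map_mul, hc', mul_comm, mul_assoc, inv_mul_cancel₀ hd.ne, mul_one]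
    have hrd : D₀.rd (aeval t p) ≠ 0 := by
      rw [hG2]
      intro h0
      exact hne ((transcendental_iff.1 htr) _ h0)
    rcases lt_or_eq_of_le ((D₀.O.valuation_le_one_iff _).2 hG1) with h1 | h1
    · exact absurd ((VertAbs_rd_eq_zero_iff D₀ hG1).2 h1) hrd
    · exact h1

end Fermat.Agent.S36.GRE
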