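import Fermat.Agent.S36.GRE.Out
import Fermat.Agent.S36.GRE.Proj
import Fermat.Agent.S36.GRE.IntDesc
import Fermat.Agent.S36.GRE.IntSpan
import Fermat.Agent.S36.GRE.IndepUp
import Fermat.Agent.S36.GRE.ResSurj
import Fermat.Agent.S36.GRE.Restrict
import Fermat.Agent.S36.GRE.ChartDesc
import Fermat.Agent.S36.GRE.BBasis0
import Fermat.Agent.S36.GRE.BBasisN
import Fermat.Agent.S36.GRE.IntOverA
import Fermat.Agent.S36.GRE.UniqAbs
import Fermat.Agent.S36.GRE.QuotNormal
import Fermat.Agent.S36.GRE.NormalDesc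
import Fermat.Agent.S36.GRE.VertAbs
import Fermat.Agent.S36.GRE.LiftAbs
import Fermat.Agent.S36.GRE.BCInst
import Fermat.Agent.S36.GRE.GalRedInst
import Fermat.Agent.S36.GRE.UnramInst
import Fermat.Agent.S36.GRE.OAInst
import Fermat.Agent.S36.Base.Span
import Fermat.Agent.S36.Base.Descent
import Fermat.Agent.S36.Base.Frac
import Fermat.Agent.S36.Base.Mu
import Fermat.Agent.S36.Base.Res
import Fermat.Agent.S36.Base.Unram
import Fermat.Agent.S36.Base.DVR
import Fermat.Agent.S36.HM.JInt
import Fermat.Agent.S36.HM.ChartJ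
import Fermat.Agent.S36.HM.ChartHM
import Fermat.Agent.S36.HM.Unram
import Fermat.Agent.S36.HM.BranchHM

/-!
# S36 / GRE : everything unconditional.

* `all_GRE : Stmt_GRE`  (any level, any good coordinate)
* `all_GoodCoord : Gre.Stmt_GoodCoord`, `all_LiftGre : Gre.Stmt_LiftGre`  (the Hauptmodul of level `a`)
-/

set_option autoImplicit false

namespace Fermat.Agent.S36.GRE

theorem all_IntSpan : Stmt_IntSpan := intSpan (intDesc proj)

theorem all_UniqAbs : Stmt_UniqAbs := uniqAbs bBasis0 intOverA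

theorem all_BCInst : Stmt_BCInst :=
  bcInst (Base.stmt_Descent Base.stmt_Span) (Base.stmt_SpanE Base.stmt_Span) Base.stmt_LinDisj

theorem all_CorePk : CorePk where
  resSurj := resSurj
  restrict := restrict
  chartDesc := chartDesc (indepUp proj)
  bBasisN := bBasisN bBasis0
  normalDesc := normalDesc all_IntSpan
  bcInst := all_BCInst
  galRed := galRedInst
  unram := unramInst Base.stmt_Frac
  oaInst := oaInst
  res := Base.stmt_Res Base.stmt_Mu
  dvr := Base.stmt_DVR Base.stmt_Unram

/-- **[GRE]**, unconditional. -/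
theorem all_GRE : Stmt_GRE :=
  gre_of all_CorePk.resSurj all_CorePk.restrict all_CorePk.chartDesc all_CorePk.bBasisN intOverA
    all_UniqAbs (quotNormal intOverA) all_CorePk.normalDesc all_CorePk.bcInst all_CorePk.galRed
    all_CorePk.unram all_CorePk.oaInst all_CorePk.res all_CorePk.dvr

theorem all_ChartHM : HM.Stmt_ChartHM := HM.stmt_ChartHM (HM.stmt_ChartJ HM.stmt_JInt)

theorem all_BranchHM : HM.Stmt_BranchHM := HM.stmt_BranchHM all_ChartHM HM.stmt_Unram

/-- **(G1)**, unconditional. -/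
theorem all_GoodCoord : Gre.Stmt_GoodCoord :=
  stmt_GoodCoord_of all_CorePk all_UniqAbs vertAbs (liftAbs intOverA) all_ChartHM all_BranchHM

/-- **(G2b)**, unconditional. -/
theorem all_LiftGre : Gre.Stmt_LiftGre :=
  stmt_LiftGre_of all_CorePk all_UniqAbs vertAbs (liftAbs intOverA) all_ChartHM all_BranchHM

end Fermat.Agent.S36.GRE
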