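import Fermat.Agent.INJ.Interface
import Fermat.Agent.KL.Interface2

/-!
# S36 / GRE : good reduction over the discrete valuation ring `A_E` (architect helper5).  Abstract part.

Situation.  `K₀ ⊆ K` fields (`E = ℚ̄^I ⊆ ℚ̄`), `G` a group acting on `K` with fixed field `K₀`,
`F₀ / K₀` and `F / K` function fields, `ι : F₀ → F` with `F = K · ι F₀`, linearly disjoint
(`BC` = "base change datum").  `D` a reduction datum on `F / K` (INJ), `D₀` its restriction to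
`F₀ / K₀` (`IsRestr`), with the SAME residue fields `k`, `Fb`; the valuation ring `D₀.A` of `K₀` is
discrete with uniformiser `ϖ` (`IsDisc`).

Goal: normality of the special fibre (INJ `Stmt_Normal`, known over the algebraically closed `K`)
descends to `K₀`:  every element of `Fb` integral over `k[tbar]` is the reduction of an element of
`F₀` integral over `A₀[t]`; the special fibre of `Chart A₀ t` is integral and normal; the Gauss
valuation ring is the only vertical valuation ring.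

All statements are `Prop`s, each proved in its own NEW file importing this one.
-/

set_option autoImplicit false

namespace Fermat.Agent.S36.GRE

open Polynomial IntermediateField
open Fermat.Agent.INJ
open Fermat.Agent.KL (PolyR cst)

/-- A base change datum: `F = K · ι F₀`, `K` and `ι F₀` linearly disjoint over `K₀`, and a semilinear
action `g` of `G` on `F` with fixed field `ι F₀` and finite orbits. -/
structure BC (K₀ K F₀ F G : Type) [Field K₀] [Field K] [Field F₀] [Field F] [Algebra K₀ K]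
    [Algebra K₀ F₀] [Algebra K F] [Group G] [MulSemiringAction G K] where
  ι : F₀ →+* F
  g : G → F →+* F
  ι_const : ∀ a : K₀, ι (algebraMap K₀ F₀ a) = algebraMap K F (algebraMap K₀ K a)
  g_one : ∀ x : F, g 1 x = x
  g_mul : ∀ (σ τ : G) (x : F), g (σ * τ) x = g σ (g τ x)
  g_const : ∀ (σ : G) (c : K), g σ (algebraMap K F c) = algebraMap K F (σ • c)
  g_ι : ∀ (σ : G) (z : F₀), g σ (ι z) = ι z
  fixK : ∀ c : K, (∀ σ : G, σ • c = c) → ∃ a : K₀, algebraMap K₀ K a = c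
  fixF : ∀ x : F, (∀ σ : G, g σ x = x) → ∃ z : F₀, ι z = x
  orbit : ∀ x : F, {y : F | ∃ σ : G, g σ x = y}.Finite
  span : ∀ x : F, ∃ (n : ℕ) (c : Fin n → K) (z : Fin n → F₀),
    x = ∑ i, algebraMap K F (c i) * ι (z i)
  disj : ∀ (n : ℕ) (c : Fin n → K) (z : Fin n → F₀), LinearIndependent K₀ c →
    ∑ i, algebraMap K F (c i) * ι (z i) = 0 → ∀ i, z i = 0

section Defs

variable {K₀ K F₀ F G k Fb : Type} [Field K₀] [Field K] [Field F₀] [Field F] [Algebra K₀ K]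
  [Algebra K₀ F₀] [Algebra K F] [Group G] [MulSemiringAction G K] [Field k] [Field Fb] [Algebra k Fb]

/-- `D₀` is the restriction of `D` along `ι` (same residue fields). -/
structure IsRestr (X : BC K₀ K F₀ F G) (D : RedData K F k Fb) (D₀ : RedData K₀ F₀ k Fb) : Prop where
  memA : ∀ a : K₀, a ∈ D₀.A ↔ algebraMap K₀ K a ∈ D.A
  memO : ∀ x : F₀, x ∈ D₀.O ↔ X.ι x ∈ D.O
  ra : ∀ a : K₀, D₀.ra a = D.ra (algebraMap K₀ K a)
  rd : ∀ x : F₀, D₀.rd x = D.rd (X.ι x)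

/-- `G` acts on `O`, trivially on the residue field ("inertia"). -/
def GalRed (X : BC K₀ K F₀ F G) (D : RedData K F k Fb) : Prop :=
  ∀ (σ : G) (x : F), x ∈ D.O → X.g σ x ∈ D.O ∧ D.rd (X.g σ x) = D.rd x

/-- `A ∩ K₀ → k` is onto. -/
def ResOnto (K₀ : Type) [Field K₀] [Algebra K₀ K] (D : RedData K F k Fb) : Prop :=
  ∀ a ∈ D.A, ∃ b : K₀, algebraMap K₀ K b ∈ D.A ∧ D.ra (algebraMap K₀ K b) = D.ra a

/-- `O ∩ F₀` is unramified over `A ∩ K₀`. -/
def UnramOver (X : BC K₀ K F₀ F G) (D : RedData K F k Fb) : Prop :=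
  ∀ x : F₀, x ≠ 0 → ∃ a : K₀, a ≠ 0 ∧
    X.ι x * algebraMap K F (algebraMap K₀ K a) ∈ D.O ∧
    (X.ι x * algebraMap K F (algebraMap K₀ K a))⁻¹ ∈ D.O

/-- the valuation ring `D₀.A` is noetherian with maximal ideal generated by `ϖ ≠ 0`. -/
structure IsDisc (D₀ : RedData K₀ F₀ k Fb) (ϖ : K₀) : Prop where
  noeth : IsNoetherianRing D₀.A
  ne : ϖ ≠ 0
  mem : ϖ ∈ D₀.A
  ra : D₀.ra ϖ = 0
  gen : ∀ a ∈ D₀.A, D₀.ra a = 0 → a * ϖ⁻¹ ∈ D₀.A

/-- the conclusion of `Stmt_Normal` for `(D₀, t)`. -/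
def NormalAt (D₀ : RedData K₀ F₀ k Fb) (t : F₀) : Prop :=
  ∀ yb : Fb, IsInt k (D₀.rd t) yb → ∃ y ∈ D₀.O, IsInt K₀ t y ∧ D₀.rd y = yb

/-- an orthonormal family `e` in `B₀ ∩ O₀` which is a basis of `B₀` over `K₀[t]` after inverting a
polynomial `a ≡ 1 mod ϖ`. -/
def HasBasisN (D₀ : RedData K₀ F₀ k Fb) (t : F₀) : Prop :=
  ∃ (e : Fin (Module.finrank K₀⟮t⟯ F₀) → F₀) (a : (D₀.A)[X]),
    (∀ i, e i ∈ D₀.O ∧ IsInt K₀ t (e i)) ∧
    LinearIndependent k⟮D₀.rd t⟯ (fun i => D₀.rd (e i)) ∧ a.map D₀.rA = 1 ∧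
    ∀ x : F₀, IsInt K₀ t x →
      aeval t (a.map D₀.A.subtype) * x ∈ Submodule.span (Algebra.adjoin K₀ {t}) (Set.range e)

end Defs

/-! ### A. linear disjointness and integrality (characteristic free, no reduction data) -/

/-- [A1] a `K₀`-linear functional of `K` can be applied to `K`-linear relations between elements of
`ι F₀`. -/
def Stmt_Proj : Prop :=
  ∀ (K₀ K F₀ F G : Type) [Field K₀] [Field K] [Field F₀] [Field F] [Algebra K₀ K] [Algebra K₀ F₀]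
    [Algebra K F] [Group G] [MulSemiringAction G K] (X : BC K₀ K F₀ F G) (l : K →ₗ[K₀] K₀)
    (ι' : Type) (s : Finset ι') (a : ι' → K) (w : ι' → F₀),
    ∑ i ∈ s, algebraMap K F (a i) * X.ι (w i) = 0 →
    ∑ i ∈ s, algebraMap K₀ F₀ (l (a i)) * w i = 0

/-- [A2] integrality over `K[t]` descends to `K₀[t]`. -/
def Stmt_IntDesc : Prop :=
  ∀ (K₀ K F₀ F G : Type) [Field K₀] [Field K] [Field F₀] [Field F] [Algebra K₀ K] [Algebra K₀ F₀]
    [Algebra K F] [Group G] [MulSemiringAction G K] (X : BC K₀ K F₀ F G) (t z : F₀),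
    IsInt K (X.ι t) (X.ι z) → IsInt K₀ t z

/-- [A3] `B = K · ι B₀` (normalisation commutes with the extension of constants). -/
def Stmt_IntSpan : Prop :=
  ∀ (K₀ K F₀ F G : Type) [Field K₀] [Field K] [Field F₀] [Field F] [Algebra K₀ K] [Algebra K₀ F₀]
    [Algebra K F] [Group G] [MulSemiringAction G K] (X : BC K₀ K F₀ F G) (t : F₀) (y : F),
    IsInt K (X.ι t) y →
    ∃ (n : ℕ) (c : Fin n → K) (z : Fin n → F₀), (∀ i, IsInt K₀ t (z i)) ∧
      y = ∑ i, algebraMap K F (c i) * X.ι (z i)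

/-- [A4] families independent over `K₀(t)` stay independent over `K(t)`. -/
def Stmt_IndepUp : Prop :=
  ∀ (K₀ K F₀ F G : Type) [Field K₀] [Field K] [Field F₀] [Field F] [Algebra K₀ K] [Algebra K₀ F₀]
    [Algebra K F] [Group G] [MulSemiringAction G K] (X : BC K₀ K F₀ F G) (t : F₀),
    Transcendental K (X.ι t) → ∀ (n : ℕ) (f : Fin n → F₀), LinearIndependent K₀⟮t⟯ f →
    LinearIndependent K⟮X.ι t⟯ (fun i => X.ι (f i))

/-! ### B. the restricted reduction datum -/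

/-- [B1] the residue field does not shrink. -/
def Stmt_ResSurj : Prop :=
  ∀ (K₀ K F₀ F G k Fb : Type) [Field K₀] [Field K] [Field F₀] [Field F] [Algebra K₀ K]
    [Algebra K₀ F₀] [Algebra K F] [Group G] [MulSemiringAction G K] [Field k] [Field Fb]
    [Algebra k Fb] (X : BC K₀ K F₀ F G) (D : RedData K F k Fb) (t : F₀),
    GalRed X D → ResOnto K₀ D → X.ι t ∈ D.O → Algebra.IsSeparable k⟮D.rd (X.ι t)⟯ Fb →
    ∀ yb : Fb, ∃ z : F₀, X.ι z ∈ D.O ∧ D.rd (X.ι z) = yb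

/-- [B2] existence of the restricted datum. -/
def Stmt_Restrict : Prop :=
  ∀ (K₀ K F₀ F G k Fb : Type) [Field K₀] [Field K] [Field F₀] [Field F] [Algebra K₀ K]
    [Algebra K₀ F₀] [Algebra K F] [Group G] [MulSemiringAction G K] [Field k] [Field Fb]
    [Algebra k Fb] (X : BC K₀ K F₀ F G) (D : RedData K F k Fb),
    ResOnto K₀ D → UnramOver X D → (∀ yb : Fb, ∃ z : F₀, X.ι z ∈ D.O ∧ D.rd (X.ι z) = yb) →
    ∃ D₀ : RedData K₀ F₀ k Fb, IsRestr X D D₀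

/-- [B3] a good coordinate stays good. -/
def Stmt_ChartDesc : Prop :=
  ∀ (K₀ K F₀ F G k Fb : Type) [Field K₀] [Field K] [Field F₀] [Field F] [Algebra K₀ K]
    [Algebra K₀ F₀] [Algebra K F] [Group G] [MulSemiringAction G K] [Field k] [Field Fb]
    [Algebra k Fb] (X : BC K₀ K F₀ F G) (D : RedData K F k Fb) (D₀ : RedData K₀ F₀ k Fb) (t : F₀),
    IsRestr X D D₀ → Chart D (X.ι t) → Chart D₀ t

/-! ### C. one reduction datum over a discrete valuation ring -/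

/-- [C0] lifts of a `k[tbar]`-basis of `rd (B₀ ∩ O₀)` (first half of INJ P6; no hypothesis on `K₀`). -/
def Stmt_BBasis0 : Prop :=
  ∀ (K₀ F₀ k Fb : Type) [Field K₀] [CharZero K₀] [Field F₀] [Algebra K₀ F₀] [Field k] [Field Fb]
    [Algebra k Fb] (D₀ : RedData K₀ F₀ k Fb) (t : F₀), Chart D₀ t →
    ∃ e : Fin (Module.finrank K₀⟮t⟯ F₀) → F₀, (∀ i, e i ∈ D₀.O ∧ IsInt K₀ t (e i)) ∧
      LinearIndependent k⟮D₀.rd t⟯ (fun i => D₀.rd (e i)) ∧
      ∀ x ∈ D₀.O, IsInt K₀ t x →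
        D₀.rd x ∈ Submodule.span (Algebra.adjoin k {D₀.rd t}) (Set.range fun i => D₀.rd (e i))

/-- [C1] `B₀ ∩ O₀` is free over `A₀[t]` on an orthonormal basis, after inverting some `a ≡ 1`. -/
def Stmt_BBasisN : Prop :=
  ∀ (K₀ F₀ k Fb : Type) [Field K₀] [CharZero K₀] [Field F₀] [Algebra K₀ F₀] [Field k] [Field Fb]
    [Algebra k Fb] (D₀ : RedData K₀ F₀ k Fb) (t : F₀) (ϖ : K₀),
    Chart D₀ t → IsDisc D₀ ϖ → HasBasisN D₀ t

/-- [C2] `Chart A₀ t = B₀ ∩ O₀`. -/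
def Stmt_IntOverA : Prop :=
  ∀ (A₀ K₀ F₀ k Fb : Type) [CommRing A₀] [Field K₀] [Field F₀] [Algebra A₀ K₀] [Algebra K₀ F₀]
    [Algebra A₀ F₀] [IsScalarTower A₀ K₀ F₀] [Field k] [Field Fb] [Algebra k Fb]
    (D₀ : RedData K₀ F₀ k Fb) (t : F₀), (∀ a : K₀, a ∈ D₀.A ↔ a ∈ (algebraMap A₀ K₀).range) →
    Chart D₀ t → ∀ x : F₀, IsIntegral (PolyR A₀ t) x ↔ x ∈ D₀.O ∧ IsInt K₀ t x

/-- [C3] the Gauss valuation ring is the only vertical valuation ring. -/
def Stmt_UniqAbs : Prop :=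
  ∀ (A₀ K₀ F₀ k Fb : Type) [CommRing A₀] [Field K₀] [CharZero K₀] [Field F₀] [Algebra A₀ K₀]
    [Algebra K₀ F₀] [Algebra A₀ F₀] [IsScalarTower A₀ K₀ F₀] [Field k] [Field Fb] [Algebra k Fb]
    (D₀ : RedData K₀ F₀ k Fb) (t : F₀) (ϖ : A₀),
    (∀ a : K₀, a ∈ D₀.A ↔ a ∈ (algebraMap A₀ K₀).range) →
    Chart D₀ t → IsDisc D₀ (algebraMap A₀ K₀ ϖ) →
    ∀ O' : ValuationSubring F₀, (∀ a : A₀, algebraMap A₀ F₀ a ∈ O') → t ∈ O' →
      O'.valuation (algebraMap A₀ F₀ ϖ) < 1 →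
      (∀ p : A₀[X], (∃ i, ¬ ϖ ∣ p.coeff i) → O'.valuation (aeval t p) = 1) → O' = D₀.O

/-- [C4] the special fibre of the chart is integral and normal. -/
def Stmt_QuotNormal : Prop :=
  ∀ (A₀ K₀ F₀ k Fb : Type) [CommRing A₀] [Field K₀] [CharZero K₀] [Field F₀] [Algebra A₀ K₀]
    [Algebra K₀ F₀] [Algebra A₀ F₀] [IsScalarTower A₀ K₀ F₀] [Field k] [Field Fb] [Algebra k Fb]
    (D₀ : RedData K₀ F₀ k Fb) (t : F₀) (ϖ : A₀),
    (∀ a : K₀, a ∈ D₀.A ↔ a ∈ (algebraMap A₀ K₀).range) →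
    Chart D₀ t → IsDisc D₀ (algebraMap A₀ K₀ ϖ) → NormalAt D₀ t →
    (∀ b : KL.Chart A₀ t, b ∈ Ideal.span {cst A₀ t ϖ} ↔ D₀.rd (b : F₀) = 0) ∧
    (Ideal.span {cst A₀ t ϖ}).IsPrime ∧
    IsIntegrallyClosed (KL.Chart A₀ t ⧸ Ideal.span {cst A₀ t ϖ})

/-! ### D. the descent of normality -/

/-- [D1] **normality descends.** -/
def Stmt_NormalDesc : Prop :=
  ∀ (K₀ K F₀ F G k Fb : Type) [Field K₀] [Field K] [Field F₀] [Field F] [Algebra K₀ K]
    [Algebra K₀ F₀] [Algebra K F] [Group G] [MulSemiringAction G K] [Field k] [Field Fb]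
    [Algebra k Fb] (X : BC K₀ K F₀ F G) (D : RedData K F k Fb) (D₀ : RedData K₀ F₀ k Fb) (t : F₀),
    IsRestr X D D₀ → Chart D (X.ι t) → HasBasisN D₀ t → NormalAt D (X.ι t) → NormalAt D₀ t

end Fermat.Agent.S36.GRE
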