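import Fermat.Agent.S36.GRE.Interface
import Fermat.Agent.INJ.All

/-!
# S36 / GRE : assembly.  All the packages `⟹ Stmt_GRE`.
-/

set_option autoImplicit false

noncomputable section

namespace Fermat.Agent.S36.GRE

open Fermat.Agent
open Fermat.Agent.S24 (Qbar FF)
open Fermat.Agent.INJ (RedData)
open Fermat.Agent.INJ.Inst (kA IsGauss)
open Fermat.Agent.S36.Base
open Fermat.Agent.ES.Mid (GQ gal)
open Fermat.Agent.KL (cst)

section Abs

variable {K F k Fb : Type} [Field K] [Field F] [Algebra K F] [Field k] [Field Fb] [Algebra k Fb]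

/-- `rd b = 0 ↔ v(b) < 1` on `O`. -/
theorem Asm_rd_eq_zero_iff (D : RedData K F k Fb) {b : F} (hb : b ∈ D.O) :
    D.rd b = 0 ↔ D.O.valuation b < 1 := by
  constructor
  · intro h
    rcases lt_or_eq_of_le ((D.O.valuation_le_one_iff b).2 hb) with h1 | h1
    · exact h1
    · exfalso
      have hu : IsUnit (⟨b, hb⟩ : D.O) := (D.O.valuation_eq_one_iff ⟨b, hb⟩).2 h1
      obtain ⟨u, hu⟩ := hu
      have h2 : D.rO (u : D.O) * D.rO ((u⁻¹ : (D.O)ˣ) : D.O) = 1 := by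
        rw [← map_mul, Units.mul_inv, map_one]
      rw [hu, ← RedData.rd_of_mem hb, h, zero_mul] at h2
      exact zero_ne_one h2
  · intro h
    by_contra h0
    have h1 : b⁻¹ ∈ D.O := RedData.inv_mem_of_rd_ne_zero h0
    have h2 := (D.O.valuation_le_one_iff b⁻¹).2 h1
    have hb0 : b ≠ 0 := by
      rintro rfl
      exact h0 RedData.rd_zero
    have h3 : D.O.valuation b * D.O.valuation b⁻¹ = 1 := by
      rw [← map_mul, mul_inv_cancel₀ hb0, map_one]
    have h4 : D.O.valuation b * D.O.valuation b⁻¹ < 1 := by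
      calc D.O.valuation b * D.O.valuation b⁻¹ ≤ D.O.valuation b * 1 := by gcongr
        _ = D.O.valuation b := mul_one _
        _ < 1 := h
    exact absurd h3 (ne_of_lt h4)

end Abs

variable {A : ValuationSubring Qbar} {N : ℕ}
  {L : IntermediateField (kA A) (LaurentSeries (kA A))} {D : RedData Qbar (FF N) (kA A) L}

theorem Asm_ra_eq_zero_iff (hG : IsGauss N A L D) {a : Qbar} (ha : a ∈ A) :
    D.ra a = 0 ↔ (⟨a, ha⟩ : A) ∈ IsLocalRing.maximalIdeal A := by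
  rw [hG.ra a ha]
  exact IsLocalRing.residue_eq_zero_iff _

theorem Asm_resOnto (hRes : Base.Stmt_Res) {r : ℕ} (hr : r.Prime) (hA : A.LiesOverPrime r)
    (hG : IsGauss N A L D) : ResOnto (IE A) D := by
  intro a ha
  rw [hG.hA] at ha
  obtain ⟨b, hb⟩ := hRes r A hr hA ⟨a, ha⟩
  refine ⟨algebraMap (AE A) (IE A) b, ?_, ?_⟩
  · rw [hG.hA]; exact AE.mem A b
  · rw [hG.ra a ha, hG.ra _ (AE.mem A b)]
    have h1 : IsLocalRing.residue A (⟨a, ha⟩ - AE.toA A b) = 0 :=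
      (IsLocalRing.residue_eq_zero_iff _).2 hb
    rw [map_sub, sub_eq_zero] at h1
    rw [h1]
    rfl

theorem Asm_isDisc (hDVR : Base.Stmt_DVR) {r : ℕ} (hr : r.Prime) (hA : A.LiesOverPrime r)
    (hG : IsGauss N A L D) (X : BC (IE A) Qbar (FE A N) (FF N) (IG A))
    (D₀ : RedData (IE A) (FE A N) (kA A) L) (hR : IsRestr X D D₀) :
    IsDisc D₀ (algebraMap (AE A) (IE A) ((r : ℕ) : AE A)) := by
  obtain ⟨hdvr, hirr⟩ := hDVR r A hr hA
  have hAeq : D₀.A = AEv A := by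
    ext a
    rw [hR.memA, hG.hA]
    exact Iff.rfl
  have hrQ : algebraMap (IE A) Qbar (algebraMap (AE A) (IE A) ((r : ℕ) : AE A)) = (r : Qbar) := by
    rw [map_natCast, map_natCast]
  have hrA : (r : Qbar) ∈ A := by
    rw [← hrQ]; exact AE.mem A _
  refine ⟨?_, ?_, ?_, ?_, ?_⟩
  · rw [hAeq]
    have h1 : IsNoetherianRing (AE A) := inferInstance
    exact h1
  · rw [map_natCast]
    exact_mod_cast hr.ne_zero
  · rw [hR.memA, hG.hA]; exact AE.mem A _
  · rw [hR.ra, hrQ, Asm_ra_eq_zero_iff hG hrA]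
    obtain ⟨h1, h2⟩ := (ValuationSubring.mem_nonunits_iff_exists_mem_maximalIdeal).1 hA
    exact h2
  · intro a ha h0
    rw [hR.memA, hG.hA] at ha
    rw [hR.ra, Asm_ra_eq_zero_iff hG ha] at h0
    obtain ⟨a', rfl⟩ := (AE.mem_range_iff A).2 ha
    have hnu : ¬ IsUnit a' := by
      intro hu
      have h1 : IsUnit (AE.toA A a') := hu.map (AE.toA A)
      exact (IsLocalRing.mem_maximalIdeal _).1 h0 h1
    have h2 : a' ∈ IsLocalRing.maximalIdeal (AE A) := (IsLocalRing.mem_maximalIdeal _).2 hnu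
    rw [hirr.maximalIdeal_eq, Ideal.mem_span_singleton] at h2
    obtain ⟨c, rfl⟩ := h2
    have hr0 : algebraMap (AE A) (IE A) ((r : ℕ) : AE A) ≠ 0 := by
      rw [map_natCast]
      exact_mod_cast hr.ne_zero
    rw [map_mul, mul_comm, ← mul_assoc, inv_mul_cancel₀ hr0, one_mul, hR.memA, hG.hA]
    exact AE.mem A c

/-- **Assembly.** -/
theorem gre_of (hResSurj : Stmt_ResSurj) (hRestrict : Stmt_Restrict) (hChartDesc : Stmt_ChartDesc)
    (hBBasisN : Stmt_BBasisN) (hIntA : Stmt_IntOverA) (hUniq : Stmt_UniqAbs)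
    (hQuot : Stmt_QuotNormal) (hND : Stmt_NormalDesc) (hBC : Stmt_BCInst) (hGal : Stmt_GalRedInst)
    (hUnr : Stmt_UnramInst) (hOA : Stmt_OAInst) (hRes : Base.Stmt_Res) (hDVR : Base.Stmt_DVR) :
    Stmt_GRE := by
  intro r A N _ hr hA t hgood
  obtain ⟨L, D, hG⟩ := exists_gaussS N A
  obtain ⟨hC, hB⟩ := hgood L D hG.gauss
  obtain ⟨X, hXι, hXg⟩ := hBC A N
  rw [← hXι] at hC hB
  have hGR : GalRed X D := fun σ x hx => by
    rw [hXg]; exact hGal A N L D hG σ σ.2 x hx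
  have hRO : ResOnto (IE A) D := Asm_resOnto hRes hr hA hG.gauss
  have hUO : UnramOver X D := fun x hx => by
    rw [hXι]; exact hUnr A N L D hG x hx
  have hsurj := hResSurj (IE A) Qbar (FE A N) (FF N) (IG A) (kA A) L X D t hGR hRO hC.t_mem hC.sep
  obtain ⟨D₀, hR⟩ := hRestrict (IE A) Qbar (FE A N) (FF N) (IG A) (kA A) L X D hRO hUO hsurj
  have hC₀ : INJ.Chart D₀ t :=
    hChartDesc (IE A) Qbar (FE A N) (FF N) (IG A) (kA A) L X D D₀ t hR hC
  have hA₀ : ∀ a : IE A, a ∈ D₀.A ↔ a ∈ (algebraMap (AE A) (IE A)).range := fun a => by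
    rw [hR.memA, hG.gauss.hA, AE.mem_range_iff]
  have hdisc := Asm_isDisc hDVR hr hA hG.gauss X D₀ hR
  have hN : NormalAt D (X.ι t) := fun yb h =>
    INJ.all_Normal Qbar (FF N) (kA A) L D (X.ι t) hC hB yb h
  have hN₀ : NormalAt D₀ t :=
    hND (IE A) Qbar (FE A N) (FF N) (IG A) (kA A) L X D D₀ t hR hC
      (hBBasisN (IE A) (FE A N) (kA A) L D₀ t _ hC₀ hdisc) hN
  obtain ⟨q1, q2, q3⟩ :=
    hQuot (AE A) (IE A) (FE A N) (kA A) L D₀ t ((r : ℕ) : AE A) hA₀ hC₀ hdisc hN₀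
  have hO : D₀.O = Val.OA A N := by
    ext x
    rw [hR.memO, hXι]
    exact (hOA A N L D hG x).symm
  refine ⟨fun O hO' => ?_, fun b => ?_, q2, q3⟩
  · rw [← hO]
    exact hUniq (AE A) (IE A) (FE A N) (kA A) L D₀ t ((r : ℕ) : AE A) hA₀ hC₀ hdisc O
      hO'.1 hO'.2.1 hO'.2.2.1 hO'.2.2.2
  · have hb : (b : FE A N) ∈ D₀.O :=
      ((hIntA (AE A) (IE A) (FE A N) (kA A) L D₀ t hA₀ hC₀ (b : FE A N)).1 b.2).1
    rw [q1 b, ← hO]
    exact Asm_rd_eq_zero_iff D₀ hb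

end Fermat.Agent.S36.GRE

end
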