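import Fermat.Agent.S36.GRE.Abs
import Fermat.Agent.S36.Val.Interface
import Fermat.Agent.S36.Base.Interface
import Fermat.Agent.INJ.Inst.Interface

/-!
# S36 / GRE : good reduction over `A_E`, concrete part (architect helper5)

Level `N` (in the application `r ∤ N`), `A` a valuation subring of `ℚ̄` over `r`, `E = IE A`,
`A_E = AE A`, `F_E = FE A N`.  `t : FE A N` a coordinate which is good over `ℚ̄` (`GoodCoord`: INJ's
`Chart` and `Branch` for every Gauss datum; delivered by [HM] for the Hauptmodul and its inverse).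

**Output** (`Stmt_GRE`): the Gauss valuation ring `Val.OA A N` is the only vertical valuation ring of
`F_E`, `r` generates a prime ideal of `Chart A_E t`, with integrally closed quotient.
-/

set_option autoImplicit false

noncomputable section

namespace Fermat.Agent.S36.GRE

open Fermat.Agent
open Fermat.Agent.S24 (Qbar FF)
open Fermat.Agent.INJ (RedData)
open Fermat.Agent.INJ.Inst (kA IsGauss)
open Fermat.Agent.S36.Base
open Fermat.Agent.ES.Mid (GQ gal)
open Fermat.Agent.KL (cst)
open ModularCurve (coeffMap)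

/-- shortcut instance (the generic search is very slow here). -/
instance instAlgebraKAL (A : ValuationSubring Qbar)
    (L : IntermediateField (kA A) (LaurentSeries (kA A))) : Algebra (kA A) L :=
  SubalgebraClass.toAlgebra L

/-- the inertia group, as a type. -/
abbrev IG (A : ValuationSubring Qbar) : Type := ↥(A.inertiaSubgroupIn ℚ)

/-- the strong form of `IsGauss` (`INJ.Inst.exists_gauss_strong`): `O` and `rd` in terms of ratios of
`A`-integral series. -/
structure IsGaussS (N : ℕ) (A : ValuationSubring Qbar)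
    (L : IntermediateField (kA A) (LaurentSeries (kA A)))
    (D : RedData Qbar (FF N) (kA A) L) : Prop where
  gauss : IsGauss N A L D
  ratio : ∀ (x : FF N) (f g : LaurentSeries A), coeffMap (IsLocalRing.residue A) g ≠ 0 →
    (x : LaurentSeries Qbar) * coeffMap A.subtype g = coeffMap A.subtype f →
    x ∈ D.O ∧ ((D.rd x : L) : LaurentSeries (kA A)) =
      coeffMap (IsLocalRing.residue A) f / coeffMap (IsLocalRing.residue A) g
  exists_ratio : ∀ x : FF N, x ∈ D.O → ∃ f g : LaurentSeries A,
    coeffMap (IsLocalRing.residue A) g ≠ 0 ∧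
    (x : LaurentSeries Qbar) * coeffMap A.subtype g = coeffMap A.subtype f

theorem exists_gaussS (N : ℕ) [NeZero N] (A : ValuationSubring Qbar) :
    ∃ (L : IntermediateField (kA A) (LaurentSeries (kA A))) (D : RedData Qbar (FF N) (kA A) L),
      IsGaussS N A L D := by
  obtain ⟨L, D, h1, h2, h3⟩ := INJ.Inst.exists_gauss_strong N A
  exact ⟨L, D, ⟨h1, h2, h3⟩⟩

/-- `t` is a good coordinate over `ℚ̄` (input from [HM]). -/
def GoodCoord (A : ValuationSubring Qbar) (N : ℕ) (t : FE A N) : Prop :=
  ∀ (L : IntermediateField (kA A) (LaurentSeries (kA A))) (D : RedData Qbar (FF N) (kA A) L),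
    IsGauss N A L D → INJ.Chart D (emb A N t) ∧ INJ.Branch D (emb A N t)

/-- [E1] the base change datum `(E, ℚ̄, F_E, F, I)`. -/
def Stmt_BCInst : Prop :=
  ∀ (A : ValuationSubring Qbar) (N : ℕ) [NeZero N],
    ∃ X : BC (IE A) Qbar (FE A N) (FF N) (IG A), X.ι = emb A N ∧
      ∀ (σ : IG A) (x : FF N), X.g σ x = gal N (σ : GQ) x

/-- [E2] inertia preserves the Gauss valuation ring and acts trivially on its residue field. -/
def Stmt_GalRedInst : Prop :=
  ∀ (A : ValuationSubring Qbar) (N : ℕ) [NeZero N]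
    (L : IntermediateField (kA A) (LaurentSeries (kA A))) (D : RedData Qbar (FF N) (kA A) L),
    IsGaussS N A L D → ∀ σ ∈ A.inertiaSubgroupIn ℚ, ∀ x ∈ D.O,
      gal N σ x ∈ D.O ∧ D.rd (gal N σ x) = D.rd x

/-- [E3] the Gauss valuation of `F_E` is unramified over `A_E`. -/
def Stmt_UnramInst : Prop :=
  ∀ (A : ValuationSubring Qbar) (N : ℕ) [NeZero N]
    (L : IntermediateField (kA A) (LaurentSeries (kA A))) (D : RedData Qbar (FF N) (kA A) L),
    IsGaussS N A L D → ∀ x : FE A N, x ≠ 0 → ∃ a : IE A, a ≠ 0 ∧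
      emb A N x * algebraMap Qbar (FF N) (algebraMap (IE A) Qbar a) ∈ D.O ∧
      (emb A N x * algebraMap Qbar (FF N) (algebraMap (IE A) Qbar a))⁻¹ ∈ D.O

/-- [E4] `Val.OA A N` is the restriction of `D.O`. -/
def Stmt_OAInst : Prop :=
  ∀ (A : ValuationSubring Qbar) (N : ℕ) [NeZero N]
    (L : IntermediateField (kA A) (LaurentSeries (kA A))) (D : RedData Qbar (FF N) (kA A) L),
    IsGaussS N A L D → ∀ x : FE A N, x ∈ Val.OA A N ↔ emb A N x ∈ D.O

/-- **[GRE]** : the output. -/
def Stmt_GRE : Prop :=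
  ∀ (r : ℕ) (A : ValuationSubring Qbar) (N : ℕ) [NeZero N], r.Prime → A.LiesOverPrime r →
    ∀ t : FE A N, GoodCoord A N t →
    (∀ O : ValuationSubring (FE A N), Val.IsVert (AE A) ((r : ℕ) : AE A) t O → O = Val.OA A N) ∧
    (∀ b : KL.Chart (AE A) t, b ∈ Ideal.span {cst (AE A) t ((r : ℕ) : AE A)} ↔
      (Val.OA A N).valuation (b : FE A N) < 1) ∧
    (Ideal.span {cst (AE A) t ((r : ℕ) : AE A)}).IsPrime ∧
    IsIntegrallyClosed (KL.Chart (AE A) t ⧸ Ideal.span {cst (AE A) t ((r : ℕ) : AE A)})

end Fermat.Agent.S36.GRE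

end
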