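import Fermat.Agent.S36.GRE.Abs
import Fermat.Agent.INJ.P1
import Fermat.Agent.INJ.P2
import Fermat.Agent.INJ.P5

/-!
# S36 / GRE / D1 : normality of the special fibre descends from `K` to `K₀`
-/

set_option autoImplicit false

namespace Fermat.Agent.S36.GRE

open Polynomial IntermediateField
open Fermat.Agent.INJ

section Aux

variable {K₀ K F₀ F G : Type} [Field K₀] [Field K] [Field F₀] [Field F] [Algebra K₀ K]
  [Algebra K₀ F₀] [Algebra K F] [Group G] [MulSemiringAction G K]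

theorem NormalDesc_ι_aeval (X : BC K₀ K F₀ F G) (t : F₀) (p : K₀[X]) :
    X.ι (aeval t p) = aeval (X.ι t) (p.map (algebraMap K₀ K)) := by
  rw [aeval_def, aeval_def, Polynomial.hom_eval₂, Polynomial.eval₂_map]
  congr 1
  exact RingHom.ext X.ι_const

theorem NormalDesc_isInt_aeval {K F : Type*} [Field K] [Field F] [Algebra K F] (t : F) (p : K[X]) :
    IsInt K t (aeval t p) := by
  unfold IsInt
  have h : aeval t p ∈ Algebra.adjoin K {t} := Polynomial.aeval_mem_adjoin_singleton K t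
  exact isIntegral_algebraMap (R := Algebra.adjoin K {t}) (x := ⟨_, h⟩)

end Aux

theorem normalDesc (h3 : Stmt_IntSpan) : Stmt_NormalDesc := by
  intro K₀ K F₀ F G k Fb _ _ _ _ _ _ _ _ _ _ _ _ X D D₀ t hR hCh hB hN yb hyb
  obtain ⟨e, a, he, hli, ha, hspan⟩ := hB
  have htb : D₀.rd t = D.rd (X.ι t) := hR.rd t
  have ht0 : t ∈ D₀.O := (hR.memO t).2 hCh.t_mem
  have htr0 : Transcendental k (D₀.rd t) := by rw [htb]; exact hCh.trans
  have G0 := stmt_Gauss K₀ F₀ k Fb D₀ t ht0 htr0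
  have GG := stmt_Gauss K F k Fb D (X.ι t) hCh.t_mem hCh.trans
  rw [htb] at hyb
  obtain ⟨y, hyO, hyI, hyrd⟩ := hN yb hyb
  obtain ⟨n, c, z, hz, hy⟩ := h3 K₀ K F₀ F G X t y hyI
  have hP : ∀ i, ∃ P : Fin (Module.finrank K₀⟮t⟯ F₀) → K₀[X],
      aeval t (a.map D₀.A.subtype) * z i = ∑ j, aeval t (P j) * e j := fun i =>
    (P5_mem_span_iff t e _).1 (hspan (z i) (hz i))
  choose P hP using hP
  obtain ⟨α, hα⟩ : ∃ α, α = X.ι (aeval t (a.map D₀.A.subtype)) := ⟨_, rfl⟩
  have hαO : α ∈ D.O := by rw [hα]; exact (hR.memO _).1 (G0.1 a).1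
  have hα1 : D.rd α = 1 := by
    rw [hα, ← hR.rd, (G0.1 a).2, ha, map_one]
  let R : Fin (Module.finrank K₀⟮t⟯ F₀) → K[X] := fun j =>
    ∑ i, C (c i) * (P i j).map (algebraMap K₀ K)
  have hαy : α * y = ∑ j, aeval (X.ι t) (R j) * X.ι (e j) := by
    have h1 : ∀ i, α * X.ι (z i)
        = ∑ j, aeval (X.ι t) ((P i j).map (algebraMap K₀ K)) * X.ι (e j) := by
      intro i
      rw [hα, ← map_mul, hP i, map_sum]
      exact Finset.sum_congr rfl fun j _ => by rw [map_mul, NormalDesc_ι_aeval]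
    calc α * y = ∑ i, algebraMap K F (c i) * (α * X.ι (z i)) := by
          rw [hy, Finset.mul_sum]
          exact Finset.sum_congr rfl fun i _ => by ring
      _ = ∑ i, ∑ j, algebraMap K F (c i) *
            (aeval (X.ι t) ((P i j).map (algebraMap K₀ K)) * X.ι (e j)) := by
          exact Finset.sum_congr rfl fun i _ => by rw [h1 i, Finset.mul_sum]
      _ = ∑ j, ∑ i, algebraMap K F (c i) *
            (aeval (X.ι t) ((P i j).map (algebraMap K₀ K)) * X.ι (e j)) := Finset.sum_comm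
      _ = ∑ j, aeval (X.ι t) (R j) * X.ι (e j) := by
          refine Finset.sum_congr rfl fun j _ => ?_
          simp only [R, map_sum, map_mul, aeval_C, Finset.sum_mul]
          exact Finset.sum_congr rfl fun i _ => by ring
  have hαyO : α * y ∈ D.O := mul_mem hαO hyO
  have hαyrd : D.rd (α * y) = yb := by rw [RedData.rd_mul hαO hyO, hα1, one_mul, hyrd]
  have heO : ∀ j, X.ι (e j) ∈ D.O := fun j => (hR.memO _).1 (he j).1
  have hli' : LinearIndependent k⟮D.rd (X.ι t)⟯ (fun i => D.rd (X.ι (e i))) := by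
    have h1 : (fun i => D₀.rd (e i)) = fun i => D.rd (X.ι (e i)) := funext fun i => hR.rd _
    rw [h1, htb] at hli
    exact hli
  have hOr := (stmt_Ortho stmt_Gauss K F k Fb D (X.ι t) hCh.t_mem hCh.trans _
    (fun j => X.ι (e j)) heO hli').2
    (fun j => ⟨aeval (X.ι t) (R j), P5_aeval_mem (X.ι t) (R j)⟩) (by rw [← hαy]; exact hαyO)
  have hQ : ∀ j, ∃ Q : (D.A)[X], Q.map D.A.subtype = R j := fun j => GG.2.1 (R j) (hOr j)
  choose Q hQ using hQ
  have hQ0 : ∀ j, ∃ Q0 : (D₀.A)[X], Q0.map D₀.rA = (Q j).map D.rA := fun j =>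
    Polynomial.map_surjective D₀.rA D₀.rA_surj _
  choose Q0 hQ0 using hQ0
  refine ⟨∑ j, aeval t ((Q0 j).map D₀.A.subtype) * e j, ?_, ?_, ?_⟩
  · exact RedData.sum_mem _ _ fun j _ => mul_mem (G0.1 (Q0 j)).1 (he j).1
  · exact IsIntegral.sum _ fun j _ => IsIntegral.mul (NormalDesc_isInt_aeval t _) (he j).2
  · rw [RedData.rd_sum _ _ fun j _ => mul_mem (G0.1 (Q0 j)).1 (he j).1, ← hαyrd, hαy,
      RedData.rd_sum _ _ fun j _ => mul_mem (hOr j) (heO j)]
    refine Finset.sum_congr rfl fun j _ => ?_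
    rw [RedData.rd_mul (G0.1 (Q0 j)).1 (he j).1, RedData.rd_mul (hOr j) (heO j), (G0.1 (Q0 j)).2,
      hQ0 j, htb, hR.rd (e j), ← hQ j, (GG.1 (Q j)).2]

end Fermat.Agent.S36.GRE
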