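import Fermat.Agent.S36.GRE.Assembly
import Fermat.Agent.S36.GRE.Abs2
import Fermat.Agent.S36.Gre.Interface

/-!
# S36 / GRE : outputs in the shapes of the consumers
(`Gre.Stmt_GoodCoord` for `Val.Stmt_Main2`, `Gre.Stmt_LiftGre` for `Gre.Stmt_NorGre` / `Loc`).
-/

set_option autoImplicit false

noncomputable section

namespace Fermat.Agent.S36.GRE

open Fermat.Agent
open Fermat.Agent.S24 (Qbar FF)
open Fermat.Agent.INJ (RedData)
open Fermat.Agent.INJ.Inst (kA IsGauss)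
open Fermat.Agent.S36.Base
open Fermat.Agent.ES.Mid (GQ gal)
open Fermat.Agent.KL (cst)

/-- the packages needed for the core. -/
structure CorePk : Prop where
  resSurj : Stmt_ResSurj
  restrict : Stmt_Restrict
  chartDesc : Stmt_ChartDesc
  bBasisN : Stmt_BBasisN
  normalDesc : Stmt_NormalDesc
  bcInst : Stmt_BCInst
  galRed : Stmt_GalRedInst
  unram : Stmt_UnramInst
  oaInst : Stmt_OAInst
  res : Base.Stmt_Res
  dvr : Base.Stmt_DVR

/-- **The core**: the restriction `D₀` of the Gauss datum to `F_E`, with all its properties. -/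
theorem core_of (h : CorePk) (r : ℕ) (A : ValuationSubring Qbar) (N : ℕ) [NeZero N] (hr : r.Prime)
    (hA : A.LiesOverPrime r) (t : FE A N) (hgood : GoodCoord A N t) :
    ∃ (L : IntermediateField (kA A) (LaurentSeries (kA A)))
      (D₀ : RedData (IE A) (FE A N) (kA A) L), D₀.O = Val.OA A N ∧
      (∀ a : IE A, a ∈ D₀.A ↔ a ∈ (algebraMap (AE A) (IE A)).range) ∧ INJ.Chart D₀ t ∧
      IsDisc D₀ (algebraMap (AE A) (IE A) ((r : ℕ) : AE A)) ∧ NormalAt D₀ t := by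
  obtain ⟨L, D, hG⟩ := exists_gaussS N A
  obtain ⟨hC, hB⟩ := hgood L D hG.gauss
  obtain ⟨X, hXι, hXg⟩ := h.bcInst A N
  rw [← hXι] at hC hB
  have hGR : GalRed X D := fun σ x hx => by
    rw [hXg]; exact h.galRed A N L D hG σ σ.2 x hx
  have hRO : ResOnto (IE A) D := Asm_resOnto h.res hr hA hG.gauss
  have hUO : UnramOver X D := fun x hx => by
    rw [hXι]; exact h.unram A N L D hG x hx
  have hsurj := h.resSurj (IE A) Qbar (FE A N) (FF N) (IG A) (kA A) L X D t hGR hRO hC.t_mem hC.sep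
  obtain ⟨D₀, hR⟩ := h.restrict (IE A) Qbar (FE A N) (FF N) (IG A) (kA A) L X D hRO hUO hsurj
  have hC₀ : INJ.Chart D₀ t :=
    h.chartDesc (IE A) Qbar (FE A N) (FF N) (IG A) (kA A) L X D D₀ t hR hC
  have hA₀ : ∀ a : IE A, a ∈ D₀.A ↔ a ∈ (algebraMap (AE A) (IE A)).range := fun a => by
    rw [hR.memA, hG.gauss.hA, AE.mem_range_iff]
  have hdisc := Asm_isDisc h.dvr hr hA hG.gauss X D₀ hR
  have hN : NormalAt D (X.ι t) := fun yb h =>
    INJ.all_Normal Qbar (FF N) (kA A) L D (X.ι t) hC hB yb h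
  have hN₀ : NormalAt D₀ t :=
    h.normalDesc (IE A) Qbar (FE A N) (FF N) (IG A) (kA A) L X D D₀ t hR hC
      (h.bBasisN (IE A) (FE A N) (kA A) L D₀ t _ hC₀ hdisc) hN
  have hO : D₀.O = Val.OA A N := by
    ext x
    rw [hR.memO, hXι]
    exact (h.oaInst A N L D hG x).symm
  exact ⟨L, D₀, hO, hA₀, hC₀, hdisc, hN₀⟩

/-- the three outputs for one good coordinate. -/
theorem out_of (h : CorePk) (hUniq : Stmt_UniqAbs) (hVert : Stmt_VertAbs) (hLift : Stmt_LiftAbs)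
    (r : ℕ) (A : ValuationSubring Qbar) (N : ℕ) [NeZero N] (hr : r.Prime)
    (hA : A.LiesOverPrime r) (t : FE A N) (hgood : GoodCoord A N t) :
    Transcendental (IE A) t ∧ Val.GoodCoord A r N t ∧ Gre.LiftProp (AE A) t (Val.OA A N) := by
  obtain ⟨L, D₀, hO, hA₀, hC₀, hdisc, hN₀⟩ := core_of h r A N hr hA t hgood
  refine ⟨?_, ⟨?_, fun O hO' => ?_⟩, ?_⟩
  · exact (INJ.stmt_Gauss (IE A) (FE A N) (kA A) L D₀ t hC₀.t_mem hC₀.trans).2.2.2.1
  · rw [← hO]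
    exact hVert (AE A) (IE A) (FE A N) (kA A) L D₀ t ((r : ℕ) : AE A) (AE.algebraMap_injective A)
      hA₀ hC₀.t_mem hC₀.trans hdisc
  · rw [← hO]
    exact hUniq (AE A) (IE A) (FE A N) (kA A) L D₀ t ((r : ℕ) : AE A) hA₀ hC₀ hdisc O
      hO'.1 hO'.2.1 hO'.2.2.1 hO'.2.2.2
  · rw [← hO]
    exact hLift (AE A) (IE A) (FE A N) (kA A) L D₀ t hA₀ hC₀ hN₀

/-- the Hauptmodul and its inverse are good coordinates. -/
theorem goodCoord_hm (hCH : HM.Stmt_ChartHM) (hBH : HM.Stmt_BranchHM) (a r M : ℕ) [NeZero M]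
    (hr : r.Prime) (ha : a = 4 ∨ a = 9) (haM : a ∣ M) (hrM : ¬ r ∣ M) (A : ValuationSubring Qbar)
    (hA : A.LiesOverPrime r) (t₀ : FE A M) (ht₀ : Gre.IsHM A a t₀) :
    GoodCoord A M t₀ ∧ GoodCoord A M t₀⁻¹ := by
  have : Fact r.Prime := ⟨hr⟩
  have hcoe : ((emb A M t₀ : FF M) : LaurentSeries Qbar) = HM.tq a Qbar := by
    rw [coe_emb, ht₀]
    exact HM.coeffMap_tq (algebraMap (IE A) Qbar) a
  constructor
  · intro L D hG
    exact ⟨(hCH a M r ha haM hrM A hA L D hG _ hcoe).1, (hBH a M r ha haM hrM A hA L D hG _ hcoe).1⟩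
  · intro L D hG
    rw [map_inv₀]
    exact ⟨(hCH a M r ha haM hrM A hA L D hG _ hcoe).2, (hBH a M r ha haM hrM A hA L D hG _ hcoe).2⟩

/-- **(G1)** in helper84's shape. -/
theorem stmt_GoodCoord_of (h : CorePk) (hUniq : Stmt_UniqAbs) (hVert : Stmt_VertAbs)
    (hLift : Stmt_LiftAbs) (hCH : HM.Stmt_ChartHM) (hBH : HM.Stmt_BranchHM) :
    Gre.Stmt_GoodCoord := by
  intro a r M _ hr ha haM hrM A hA t₀ ht₀
  obtain ⟨g1, g2⟩ := goodCoord_hm hCH hBH a r M hr ha haM hrM A hA t₀ ht₀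
  exact ⟨(out_of h hUniq hVert hLift r A M hr hA t₀ g1).1,
    (out_of h hUniq hVert hLift r A M hr hA t₀ g1).2.1,
    (out_of h hUniq hVert hLift r A M hr hA t₀⁻¹ g2).2.1⟩

/-- **(G2b)** in helper84's shape. -/
theorem stmt_LiftGre_of (h : CorePk) (hUniq : Stmt_UniqAbs) (hVert : Stmt_VertAbs)
    (hLift : Stmt_LiftAbs) (hCH : HM.Stmt_ChartHM) (hBH : HM.Stmt_BranchHM) :
    Gre.Stmt_LiftGre := by
  intro a r M _ hr ha haM hrM A hA t₀ ht₀
  obtain ⟨g1, g2⟩ := goodCoord_hm hCH hBH a r M hr ha haM hrM A hA t₀ ht₀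
  exact ⟨(out_of h hUniq hVert hLift r A M hr hA t₀ g1).2.2,
    (out_of h hUniq hVert hLift r A M hr hA t₀⁻¹ g2).2.2⟩

end Fermat.Agent.S36.GRE

end
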